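import Mathlib

/-!
# S05: shared definitions (see `NOTES/S05_design.md`, contracts in `NOTES/S05_statements.lean.txt`)

`v` is a (multiplicative) valuation on a field `K`: `v x ≤ 1` iff `x` is integral.
-/

set_option autoImplicit false

open WeierstrassCurve

namespace Fermat.Agent.S05

variable {K : Type*} [Field K] {Γ₀ : Type*} [LinearOrderedCommGroupWithZero Γ₀]

/-- `E₁`: the point at infinity and the affine points with non-integral `x`. -/
def InKer (v : Valuation K Γ₀) (W : WeierstrassCurve K) : W.toAffine.Point → Prop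
  | .zero => True
  | .some x _ _ => 1 < v x

/-- integrality of a Weierstrass curve -/
def IsIntegralW (v : Valuation K Γ₀) (W : WeierstrassCurve K) : Prop :=
  v W.a₁ ≤ 1 ∧ v W.a₂ ≤ 1 ∧ v W.a₃ ≤ 1 ∧ v W.a₄ ≤ 1 ∧ v W.a₆ ≤ 1

/-- the folding invariant of a field element (`a = v α`): `1` away from the node,
`max (v x) a` near the node -/
noncomputable def cb (v : Valuation K Γ₀) (a : Γ₀) (x : K) : Γ₀ :=
  if v x < 1 then max (v x) a else 1

/-- fold of the "sum" -/
noncomputable def Fp (a c₁ c₂ : Γ₀) : Γ₀ := max (c₁ * c₂) (a ^ 2 / (c₁ * c₂))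

/-- fold of the "difference" -/
noncomputable def Fm (c₁ c₂ : Γ₀) : Γ₀ := min (c₁ / c₂) (c₂ / c₁)

/-- the folding invariant of a point: `e` is the `x`-coordinate of the node -/
noncomputable def cbarP (v : Valuation K Γ₀) (W : WeierstrassCurve K) (e α : K) :
    W.toAffine.Point → Γ₀
  | .zero => 1
  | .some x _ _ => cb v (v α) (x - e)

@[simp] theorem inKer_zero (v : Valuation K Γ₀) (W : WeierstrassCurve K) :
    InKer v W (0 : W.toAffine.Point) := trivial

@[simp] theorem inKer_some (v : Valuation K Γ₀) (W : WeierstrassCurve K) {x y : K}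
    (h : W.toAffine.Nonsingular x y) :
    InKer v W (Affine.Point.some x y h) ↔ 1 < v x := Iff.rfl

@[simp] theorem cbarP_zero (v : Valuation K Γ₀) (W : WeierstrassCurve K) (e α : K) :
    cbarP v W e α (0 : W.toAffine.Point) = 1 := rfl

@[simp] theorem cbarP_some (v : Valuation K Γ₀) (W : WeierstrassCurve K) (e α : K) {x y : K}
    (h : W.toAffine.Nonsingular x y) :
    cbarP v W e α (Affine.Point.some x y h) = cb v (v α) (x - e) := rfl

/-! Realise the lazily generated equation lemmas HERE, so that downstream modules never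
generate them (two modules generating the same `X.eq_def` collide at grading). -/

universe uK uΓ in
theorem defs_equations_realised {K : Type uK} [Field K] {Γ₀ : Type uΓ}
    [LinearOrderedCommGroupWithZero Γ₀] (v : Valuation K Γ₀) (W : WeierstrassCurve K) (e α : K)
    (a c₁ c₂ : Γ₀) (x : K) (P : W.toAffine.Point) : True := by
  have := @InKer.eq_1 K _ Γ₀ _ v W
  have := @InKer.eq_2 K _ Γ₀ _ v W
  have := @InKer.eq_def K _ Γ₀ _ v W P
  have := @InKer.eq_unfold.{uK, uΓ}
  have := @cbarP.eq_1 K _ Γ₀ _ v W e α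
  have := @cbarP.eq_2 K _ Γ₀ _ v W e α
  have := @cbarP.eq_def K _ Γ₀ _ v W e α P
  have := @cbarP.eq_unfold.{uK, uΓ}
  have := @IsIntegralW.eq_1 K _ Γ₀ _ v W
  have := @IsIntegralW.eq_def K _ Γ₀ _ v W
  have := @IsIntegralW.eq_unfold.{uK, uΓ}
  have := @cb.eq_1 K _ Γ₀ _ v a x
  have := @cb.eq_def K _ Γ₀ _ v a x
  have := @cb.eq_unfold.{uK, uΓ}
  have := @Fp.eq_1 Γ₀ _ a c₁ c₂
  have := @Fp.eq_def Γ₀ _ a c₁ c₂
  have := @Fp.eq_unfold.{uΓ}
  have := @Fm.eq_1 Γ₀ _ c₁ c₂
  have := @Fm.eq_def Γ₀ _ c₁ c₂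
  have := @Fm.eq_unfold.{uΓ}
  trivial

/-- realises the splitters of the two matchers -/
theorem defs_splitters_realised (v : Valuation K Γ₀) (W : WeierstrassCurve K) (e α : K)
    (P : W.toAffine.Point) :
    (InKer v W P ∨ ¬ InKer v W P) ∧ (cbarP v W e α P = cbarP v W e α P) := by
  constructor
  · unfold InKer
    split
    · exact Or.inl trivial
    · exact em _
  · unfold cbarP
    split
    · rfl
    · rfl

end Fermat.Agent.S05
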