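import Mathlib
import Fermat.Prelude.Def_FLTPrelim_Ramification
import Fermat.Agent.S05.Defs

/-!
# S05, piece C1: the inertia-fixed point near the node

For the curve `(2 y + a₁ x + a₃)² = 4 (x - e) (x - e - α) (x - e + β)` with `α = u d ^ p`,
`v u = v β = v 2 = 1`, `v α < 1`, and `0 < 2 k < p`, the point `P₀` with
`x(P₀) - e = d ^ (2 k)` is fixed by every `σ` with `v (σ x - x) < 1` on integral `x`:
`f₂(x₀) = (2 d ^ (2 k)) ² U` with `U = (1 - u d ^ (p - 2 k)) (d ^ (2 k) + β)` a rational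
unit, and `σ` fixes the square roots of `U`.
-/

set_option autoImplicit false

open WeierstrassCurve WeierstrassCurve.Affine

namespace Fermat.Agent.S05C

open Fermat.Agent.S05

local notation "Qbar" => AlgebraicClosure ℚ

/-- in a linearly ordered group with zero, `x ^ 2 = 1` forces `x = 1` -/
theorem eq_one_of_sq_eq_one {Γ₀ : Type*} [LinearOrderedCommGroupWithZero Γ₀] {x : Γ₀}
    (h : x ^ 2 = 1) : x = 1 := by
  rcases lt_trichotomy x 1 with h1 | h1 | h1
  · exfalso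
    have : x ^ 2 < 1 := pow_lt_one₀ zero_le h1 two_ne_zero
    rw [h] at this
    exact lt_irrefl _ this
  · exact h1
  · exfalso
    have : 1 < x ^ 2 := one_lt_pow₀ h1 two_ne_zero
    rw [h] at this
    exact lt_irrefl _ this

/-- `σ` fixes a square root `s` of a `σ`-fixed unit. -/
theorem fixes_sqrt {K : Type*} [Field K] {Γ₀ : Type*} [LinearOrderedCommGroupWithZero Γ₀]
    (v : Valuation K Γ₀) (σ : K →+* K) (hsub : ∀ x : K, v x ≤ 1 → v (σ x - x) < 1)
    (h2 : v (2 : K) = 1) {s : K} (hs : v (s ^ 2) = 1) (hfix : σ (s ^ 2) = s ^ 2) :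
    σ s = s := by
  have hvs : v s = 1 := by
    rw [map_pow] at hs
    exact eq_one_of_sq_eq_one hs
  have h1 : (σ s - s) * (σ s + s) = 0 := by
    have : σ s ^ 2 = s ^ 2 := by rw [← map_pow, hfix]
    linear_combination this
  rcases mul_eq_zero.mp h1 with h | h
  · exact sub_eq_zero.mp h
  · exfalso
    have h3 : σ s - s = -(2 * s) := by linear_combination h
    have h4 := hsub s hvs.le
    rw [h3, Valuation.map_neg, map_mul, h2, hvs, one_mul] at h4
    exact lt_irrefl _ h4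

/-- **C1**: the inertia-fixed point `P₀` with `x(P₀) - e = d ^ (2 k)`. -/
theorem exists_fixed_point (W' : WeierstrassCurve.Affine ℚ) {Γ₀ : Type*}
    [LinearOrderedCommGroupWithZero Γ₀] (v : Valuation Qbar Γ₀)
    (σ : Qbar ≃ₐ[ℚ] Qbar) (hsub : ∀ x : Qbar, v x ≤ 1 → v (σ x - x) < 1)
    (h2 : v (2 : Qbar) = 1) {e α β d u : ℚ} {p k : ℕ}
    (hf : ∀ x : Qbar, 4 * x ^ 3 + (W'.baseChange Qbar).b₂ * x ^ 2 +
        2 * (W'.baseChange Qbar).b₄ * x + (W'.baseChange Qbar).b₆ =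
      4 * ((x - (e : Qbar)) * (x - (e : Qbar) - (α : Qbar)) * (x - (e : Qbar) + (β : Qbar))))
    (hβ : v (β : Qbar) = 1) (hα : v (α : Qbar) < 1) (hα0 : α ≠ 0)
    (hαd : α = u * d ^ p) (hu : v (u : Qbar) = 1) (hk : 0 < k) (hkp : 2 * k < p) :
    ∃ (x₀ y₀ : Qbar) (h₀ : (W'⁄Qbar).Nonsingular x₀ y₀),
      x₀ - (e : Qbar) = (d : Qbar) ^ (2 * k) ∧
      σ • (Affine.Point.some x₀ y₀ h₀ : (W'⁄Qbar).Point) = Affine.Point.some x₀ y₀ h₀ := by
  -- basic facts on `d`
  have hd0 : d ≠ 0 := by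
    rintro rfl
    apply hα0
    rw [hαd, zero_pow (by omega), mul_zero]
  have hd0' : (d : Qbar) ≠ 0 := by exact_mod_cast hd0
  have hαd' : (α : Qbar) = (u : Qbar) * (d : Qbar) ^ p := by
    rw [hαd]; push_cast; rfl
  have hvd : v (d : Qbar) < 1 := by
    by_contra hcon
    push Not at hcon
    have : 1 ≤ v (α : Qbar) := by
      rw [hαd', map_mul, hu, one_mul, map_pow]
      exact one_le_pow₀ hcon
    exact absurd hα (not_lt.mpr this)
  -- the unit `U`
  set D : Qbar := (d : Qbar) ^ (2 * k) with hD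
  have hD0 : D ≠ 0 := pow_ne_zero _ hd0'
  have hvD : v D < 1 := by
    rw [hD, map_pow]
    exact pow_lt_one₀ zero_le hvd (by omega)
  set U : ℚ := (1 - u * d ^ (p - 2 * k)) * (d ^ (2 * k) + β) with hU
  have hUc : (U : Qbar) = (1 - (u : Qbar) * (d : Qbar) ^ (p - 2 * k)) * (D + (β : Qbar)) := by
    rw [hU, hD]; push_cast; rfl
  have hv1 : v (1 - (u : Qbar) * (d : Qbar) ^ (p - 2 * k)) = 1 := by
    apply Valuation.map_one_sub_of_lt
    rw [map_mul, hu, one_mul, map_pow]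
    exact pow_lt_one₀ zero_le hvd (by omega)
  have hv2 : v (D + (β : Qbar)) = 1 := by
    rw [← hβ]
    apply Valuation.map_add_eq_of_lt_right
    rw [hβ]
    exact hvD
  have hvU : v (U : Qbar) = 1 := by
    rw [hUc, map_mul, hv1, hv2, one_mul]
  -- the square root
  obtain ⟨s, hs⟩ := IsAlgClosed.exists_pow_nat_eq (U : Qbar) (n := 2) (by norm_num)
  have hσs : σ s = s := by
    apply fixes_sqrt v (σ : Qbar →+* Qbar) hsub h2
    · rw [hs]; exact hvU
    · rw [hs]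
      exact map_ratCast σ U
  have hvs : v s = 1 := by
    have : v (s ^ 2) = 1 := by rw [hs]; exact hvU
    rw [map_pow] at this
    exact eq_one_of_sq_eq_one this
  have hs0 : s ≠ 0 := by
    rintro rfl
    simp at hvs
  -- the point
  set W : WeierstrassCurve Qbar := W'.baseChange Qbar with hW
  set x₀ : Qbar := (e : Qbar) + D with hx₀
  set y₀ : Qbar := D * s - (W.a₁ * x₀ + W.a₃) / 2 with hy₀
  have h2ne : (2 : Qbar) ≠ 0 := two_ne_zero
  have hY : 2 * y₀ + W.a₁ * x₀ + W.a₃ = 2 * D * s := by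
    rw [hy₀]; field_simp; ring
  have hDα : D - (α : Qbar) = D * (1 - (u : Qbar) * (d : Qbar) ^ (p - 2 * k)) := by
    rw [hαd', hD]
    have : (d : Qbar) ^ p = (d : Qbar) ^ (2 * k) * (d : Qbar) ^ (p - 2 * k) := by
      rw [← pow_add]; congr 1; omega
    rw [this]; ring
  have hfx := hf x₀
  have hxe : x₀ - (e : Qbar) = D := by rw [hx₀]; ring
  rw [hxe, hDα] at hfx
  have heq : W.toAffine.Equation x₀ y₀ := by
    rw [Affine.equation_iff]
    have hb2 : W.b₂ = W.a₁ ^ 2 + 4 * W.a₂ := rfl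
    have hb4 : W.b₄ = 2 * W.a₄ + W.a₁ * W.a₃ := rfl
    have hb6 : W.b₆ = W.a₃ ^ 2 + 4 * W.a₆ := rfl
    have key : (2 * y₀ + W.a₁ * x₀ + W.a₃) ^ 2 =
        4 * x₀ ^ 3 + W.b₂ * x₀ ^ 2 + 2 * W.b₄ * x₀ + W.b₆ := by
      rw [hY, hfx]
      have : (2 * D * s) ^ 2 = 4 * D ^ 2 * s ^ 2 := by ring
      rw [this, hs, hUc]
      ring
    rw [hb2, hb4, hb6] at key
    apply mul_left_cancel₀ (by norm_num : (4 : Qbar) ≠ 0)
    linear_combination key
  have hns : W.toAffine.Nonsingular x₀ y₀ := by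
    rw [Affine.nonsingular_iff']
    refine ⟨heq, Or.inr ?_⟩
    rw [hY]
    exact mul_ne_zero (mul_ne_zero h2ne hD0) hs0
  refine ⟨x₀, y₀, hns, hxe, ?_⟩
  -- `σ` fixes the point
  have hσe : σ (e : Qbar) = (e : Qbar) := map_ratCast σ e
  have hσd : σ (d : Qbar) = (d : Qbar) := map_ratCast σ d
  have hσD : σ D = D := by rw [hD, map_pow, hσd]
  have hσx : σ x₀ = x₀ := by rw [hx₀, map_add, hσe, hσD]
  have hσa1 : σ W.a₁ = W.a₁ := σ.commutes W'.a₁
  have hσa3 : σ W.a₃ = W.a₃ := σ.commutes W'.a₃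
  have hσy : σ y₀ = y₀ := by
    rw [hy₀, map_sub, map_mul, map_div₀, map_add, map_mul, hσD, hσs, hσa1, hσa3, hσx,
      map_ofNat]
  rw [Affine.Point.algEquiv_smul_def, Affine.Point.map_some]
  simp only [Affine.Point.some.injEq]
  exact ⟨hσx, hσy⟩

end Fermat.Agent.S05C
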