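import Mathlib
import Fermat.Agent.S05.Defs

/-!
# S05, piece P7: the abstract consequence of the folding lemma

`G` is an additive commutative group, `c : G → Γ` a function with values in a linearly
ordered commutative group with zero, `c 0 = 1`, `c P ≠ 0`, `c P ≤ 1`, and `a < 1`, `a ≠ 0`.
If `c` satisfies the *folding law*
`{c (P + Q), c (P - Q)} = {max (c P * c Q) (a² / (c P * c Q)), min (c P / c Q) (c Q / c P)}`
then for every `T` with `p • T = 0` there is `k : ℕ` with `c T ^ p = a ^ (2 * k)`.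

(Additively: `c` is the distance of the "component" of a point to `2 n ℤ`, and the component
of a `p`-torsion point is `p`-torsion in `ℝ / 2 n ℤ`.)
-/

namespace Fermat.Agent.S05

variable {Γ : Type*} [LinearOrderedCommGroupWithZero Γ]

/-- `x` and `y` are equal up to inversion and an even power of `a`. -/
def FoldRel (a x y : Γ) : Prop :=
  ∃ k : ℤ, x = y * a ^ (2 * k) ∨ x = y⁻¹ * a ^ (2 * k)

theorem FoldRel.refl (a x : Γ) : FoldRel a x x :=
  ⟨0, Or.inl (by simp)⟩

theorem FoldRel.inv_right {a x y : Γ} (h : FoldRel a x y) : FoldRel a x y⁻¹ := by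
  obtain ⟨k, h | h⟩ := h
  · exact ⟨k, Or.inr (by rw [inv_inv]; exact h)⟩
  · exact ⟨k, Or.inl h⟩

theorem FoldRel.mul_zpow {a x y : Γ} (ha : a ≠ 0) (h : FoldRel a x y) (m : ℤ) :
    FoldRel a (x * a ^ (2 * m)) y := by
  obtain ⟨k, h | h⟩ := h
  · refine ⟨k + m, Or.inl ?_⟩
    rw [h, mul_add, zpow_add₀ ha, mul_assoc]
  · refine ⟨k + m, Or.inr ?_⟩
    rw [h, mul_add, zpow_add₀ ha, mul_assoc]

theorem FoldRel.inv_left {a x y : Γ} (h : FoldRel a x y) : FoldRel a x⁻¹ y := by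
  obtain ⟨k, h | h⟩ := h
  · refine ⟨-k, Or.inr ?_⟩
    rw [h, mul_inv, mul_neg, zpow_neg]
  · refine ⟨-k, Or.inl ?_⟩
    rw [h, mul_inv, inv_inv, mul_neg, zpow_neg]

theorem FoldRel.symm {a x y : Γ} (ha : a ≠ 0) (h : FoldRel a x y) : FoldRel a y x := by
  obtain ⟨k, h | h⟩ := h
  · refine ⟨-k, Or.inl ?_⟩
    rw [h, mul_assoc, ← zpow_add₀ ha]
    simp
  · refine ⟨k, Or.inr ?_⟩
    rw [h, mul_inv, inv_inv, mul_assoc, ← zpow_neg, ← zpow_add₀ ha]
    simp

theorem FoldRel.trans {a x y z : Γ} (ha : a ≠ 0) (h₁ : FoldRel a x y) (h₂ : FoldRel a y z) :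
    FoldRel a x z := by
  obtain ⟨k, h | h⟩ := h₁
  · rw [h]
    exact h₂.mul_zpow ha k
  · rw [h]
    exact h₂.inv_left.mul_zpow ha k

/-- `a² / x` is related to `x`. -/
theorem FoldRel.sq_div (a x : Γ) : FoldRel a (a ^ 2 / x) x :=
  ⟨1, Or.inr (by rw [div_eq_mul_inv, mul_comm]; norm_num [zpow_ofNat])⟩

theorem FoldRel.max_left {a x y z : Γ} (hx : FoldRel a x z) (hy : FoldRel a y z) :
    FoldRel a (max x y) z := by
  rcases max_choice x y with h | h <;> rw [h] <;> assumption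

theorem FoldRel.min_left {a x y z : Γ} (hx : FoldRel a x z) (hy : FoldRel a y z) :
    FoldRel a (min x y) z := by
  rcases min_choice x y with h | h <;> rw [h] <;> assumption

/-- The upper fold is related to the product. -/
theorem foldRel_foldPlus (a x : Γ) : FoldRel a (max x (a ^ 2 / x)) x :=
  FoldRel.max_left (FoldRel.refl a x) (FoldRel.sq_div a x)

/-- The lower fold is related to the quotient. -/
theorem foldRel_foldMinus (a x y : Γ) : FoldRel a (min (x / y) (y / x)) (x / y) :=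
  FoldRel.min_left (FoldRel.refl a _) ⟨0, Or.inr (by simp)⟩

/-- One step: if `x ~ t ^ (n + 1)` then `{x * t, x / t} ~ {t ^ (n + 2), t ^ n}`. -/
theorem foldRel_step {a t x : Γ} (ht : t ≠ 0) (n : ℕ) (h : FoldRel a x (t ^ (n + 1))) :
    (FoldRel a (x * t) (t ^ (n + 2)) ∧ FoldRel a (x / t) (t ^ n)) ∨
      (FoldRel a (x * t) (t ^ n) ∧ FoldRel a (x / t) (t ^ (n + 2))) := by
  obtain ⟨k, h | h⟩ := h
  · left
    constructor
    · refine ⟨k, Or.inl ?_⟩
      rw [h, pow_succ t (n + 1), mul_right_comm]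
    · refine ⟨k, Or.inl ?_⟩
      rw [h, pow_succ t n]
      field_simp
  · right
    constructor
    · refine ⟨k, Or.inr ?_⟩
      rw [h, pow_succ t n]
      field_simp
    · refine ⟨k, Or.inr ?_⟩
      rw [h, pow_succ t (n + 1)]
      field_simp

/-- **Abstract folding lemma, general form.**  `c (n • T)` is related to `c T ^ n`. -/
theorem foldRel_nsmul {G : Type*} [AddCommGroup G] (c : G → Γ) (a : Γ) (ha0 : a ≠ 0)
    (hc0 : c 0 = 1) (hcne : ∀ P, c P ≠ 0)
    (hXL : ∀ P Q : G,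
      (c (P + Q) = max (c P * c Q) (a ^ 2 / (c P * c Q)) ∧
          c (P - Q) = min (c P / c Q) (c Q / c P)) ∨
        (c (P + Q) = min (c P / c Q) (c Q / c P) ∧
          c (P - Q) = max (c P * c Q) (a ^ 2 / (c P * c Q))))
    (T : G) (n : ℕ) : FoldRel a (c (n • T)) (c T ^ n) := by
  have key : ∀ n : ℕ, FoldRel a (c (n • T)) (c T ^ n) ∧
      FoldRel a (c ((n + 1) • T)) (c T ^ (n + 1)) := by
    intro n
    induction n with
    | zero =>
      refine ⟨?_, ?_⟩
      · rw [zero_smul, hc0, pow_zero]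
        exact FoldRel.refl a 1
      · rw [zero_add, one_smul, pow_one]
        exact FoldRel.refl a _
    | succ n ih =>
      refine ⟨ih.2, ?_⟩
      have hP : (n + 1) • T + T = (n + 1 + 1) • T := (succ_nsmul T (n + 1)).symm
      have hM : (n + 1) • T - T = n • T := by
        rw [succ_nsmul, add_sub_cancel_right]
      have hFp : FoldRel a (max (c ((n + 1) • T) * c T) (a ^ 2 / (c ((n + 1) • T) * c T)))
          (c ((n + 1) • T) * c T) := foldRel_foldPlus a _
      have hFm : FoldRel a (min (c ((n + 1) • T) / c T) (c T / c ((n + 1) • T)))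
          (c ((n + 1) • T) / c T) := foldRel_foldMinus a _ _
      have hstep := foldRel_step (hcne T) n ih.2
      have hxl := hXL ((n + 1) • T) T
      rw [hP, hM] at hxl
      rcases hstep with ⟨h1, h2⟩ | ⟨h1, h2⟩
      · rcases hxl with ⟨e1, _⟩ | ⟨e1, e2⟩
        · rw [e1]
          exact hFp.trans ha0 h1
        · -- c (n • T) = Fp ~ t^(n+2), and ~ t^n by induction
          have h3 : FoldRel a (c (n • T)) (c T ^ (n + 2)) := by
            rw [e2]
            exact hFp.trans ha0 h1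
          have h4 : FoldRel a (c T ^ n) (c T ^ (n + 2)) := (ih.1.symm ha0).trans ha0 h3
          rw [e1]
          exact (hFm.trans ha0 h2).trans ha0 h4
      · rcases hxl with ⟨e1, e2⟩ | ⟨e1, _⟩
        · have h3 : FoldRel a (c (n • T)) (c T ^ (n + 2)) := by
            rw [e2]
            exact hFm.trans ha0 h2
          have h4 : FoldRel a (c T ^ n) (c T ^ (n + 2)) := (ih.1.symm ha0).trans ha0 h3
          rw [e1]
          exact (hFp.trans ha0 h1).trans ha0 h4
        · rw [e1]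
          exact hFm.trans ha0 h2
  exact (key n).1

/-- An even integral power of `a < 1` that is `≤ 1` is a natural power. -/
theorem exists_nat_of_zpow_le_one {a : Γ} (ha0 : a ≠ 0) (ha1 : a < 1) (k : ℤ)
    (h : a ^ (2 * k) ≤ 1) : ∃ m : ℕ, a ^ (2 * k) = a ^ (2 * m) := by
  rcases le_or_gt 0 k with hk | hk
  · refine ⟨k.toNat, ?_⟩
    have : (2 * k) = ((2 * k.toNat : ℕ) : ℤ) := by
      push_cast
      rw [Int.toNat_of_nonneg hk]
    rw [this, zpow_natCast]
  · exfalso
    have h2 : 0 < -(2 * k) := by omega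
    have h3 : a ^ (-(2 * k)) < 1 := by
      have : (-(2 * k)) = (((-(2 * k)).toNat : ℕ) : ℤ) := by
        rw [Int.toNat_of_nonneg h2.le]
      rw [this, zpow_natCast]
      apply pow_lt_one₀ (zero_le) ha1
      omega
    have h4 : a ^ (2 * k) * a ^ (-(2 * k)) = 1 := by
      rw [← zpow_add₀ ha0]
      simp
    have h5 : a ^ (2 * k) * a ^ (-(2 * k)) < 1 := by
      calc a ^ (2 * k) * a ^ (-(2 * k)) ≤ 1 * a ^ (-(2 * k)) := mul_le_mul' h le_rfl
        _ = a ^ (-(2 * k)) := one_mul _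
        _ < 1 := h3
    rw [h4] at h5
    exact lt_irrefl _ h5

/-- **P7: abstract consequence of the folding lemma.**  If `p • T = 0` then
`c T ^ p = a ^ (2 * k)` for some natural number `k`. -/
theorem fold_abs {G : Type*} [AddCommGroup G] (c : G → Γ) (a : Γ) (ha0 : a ≠ 0) (ha1 : a < 1)
    (hc0 : c 0 = 1) (hca : ∀ P, a ≤ c P) (hc1 : ∀ P, c P ≤ 1)
    (hXL : ∀ P Q : G,
      (c (P + Q) = max (c P * c Q) (a ^ 2 / (c P * c Q)) ∧
          c (P - Q) = min (c P / c Q) (c Q / c P)) ∨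
        (c (P + Q) = min (c P / c Q) (c Q / c P) ∧
          c (P - Q) = max (c P * c Q) (a ^ 2 / (c P * c Q))))
    (p : ℕ) (T : G) (hT : p • T = 0) : ∃ k : ℕ, c T ^ p = a ^ (2 * k) := by
  have hcne : ∀ P, c P ≠ 0 := fun P h =>
    ha0 (le_antisymm (by simpa [h] using hca P) zero_le)
  have h := foldRel_nsmul c a ha0 hc0 hcne hXL T p
  rw [hT, hc0] at h
  have hle : c T ^ p ≤ 1 := pow_le_one₀ zero_le (hc1 T)
  have hne : c T ^ p ≠ 0 := pow_ne_zero _ (hcne T)
  obtain ⟨k, h | h⟩ := h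
  · -- 1 = τ^p a^(2k): τ^p = a^(-2k)
    have e : c T ^ p = a ^ (2 * (-k)) := by
      have : c T ^ p * a ^ (2 * k) * a ^ (2 * (-k)) = a ^ (2 * (-k)) := by rw [← h, one_mul]
      rw [mul_assoc, ← zpow_add₀ ha0] at this
      simpa using this
    rw [e] at hle ⊢
    obtain ⟨m, hm⟩ := exists_nat_of_zpow_le_one ha0 ha1 (-k) hle
    exact ⟨m, hm⟩
  · have e : c T ^ p = a ^ (2 * k) := by
      have : c T ^ p * 1 = c T ^ p * ((c T ^ p)⁻¹ * a ^ (2 * k)) := by rw [← h]
      rw [mul_one, ← mul_assoc, mul_inv_cancel₀ hne, one_mul] at this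
      exact this
    rw [e] at hle ⊢
    obtain ⟨m, hm⟩ := exists_nat_of_zpow_le_one ha0 ha1 k hle
    exact ⟨m, hm⟩

/-- **P7, contract form** (with `Fp`, `Fm` of `S05/Defs.lean`). -/
theorem fold_abstract {G : Type*} [AddCommGroup G] {Γ₀ : Type*}
    [LinearOrderedCommGroupWithZero Γ₀] {a : Γ₀} (ha0 : a ≠ 0) (ha : a < 1) (c : G → Γ₀)
    (hc1 : ∀ P, a ≤ c P) (hc2 : ∀ P, c P ≤ 1) (hc0 : c 0 = 1)
    (hXL : ∀ P Q, (c (P + Q) = Fp a (c P) (c Q) ∧ c (P - Q) = Fm (c P) (c Q)) ∨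
      (c (P + Q) = Fm (c P) (c Q) ∧ c (P - Q) = Fp a (c P) (c Q)))
    {p : ℕ} {T : G} (hT : p • T = 0) :
    ∃ k : ℕ, c T ^ p = a ^ (2 * k) :=
  fold_abs c a ha0 ha hc0 hc1 hc2 hXL p T hT

end Fermat.Agent.S05
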