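import Mathlib
import Fermat.Agent.S51.Double
import Fermat.Agent.S05.Defs

/-!
# S05, piece P6: the folding lemma (XL) on the points of a Weierstrass curve

`W` is a Weierstrass curve over a valued field `(K, v)` whose `2`-division polynomial factors as
`4 (x - e) (x - e - α) (x - e + β)` with `v α < 1`, `v β = v (α + β) = v 2 = 1`.  The folding
invariant `cbarP v W e α` of a point then satisfies (XL) for all pairs of points.

This file proves `fold_curve_of`: (XL) from the statements of P1 (`xonly`) and of P5 (`fold_val`,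
`fold_val_double`, `fold_val_two`), which are taken as hypotheses here, so that this file only
depends on `Defs.lean` and `S51/Double.lean`.
-/

set_option autoImplicit false

open WeierstrassCurve

namespace Fermat.Agent.S05

section aux

variable {K : Type*} [Field K] {Γ₀ : Type*} [LinearOrderedCommGroupWithZero Γ₀]
  (v : Valuation K Γ₀)

theorem foldc_cb_le_one {a : Γ₀} (ha : a ≤ 1) (x : K) : cb v a x ≤ 1 := by
  unfold cb
  split_ifs with h
  · exact max_le h.le ha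
  · exact le_rfl

theorem foldc_le_cb {a : Γ₀} (ha : a ≤ 1) (x : K) : a ≤ cb v a x := by
  unfold cb
  split_ifs with h
  · exact le_max_right _ _
  · exact ha

theorem foldc_cb_ne_zero {a : Γ₀} (ha : a ≤ 1) (ha0 : a ≠ 0) (x : K) : cb v a x ≠ 0 := by
  intro h
  have := foldc_le_cb v ha x
  rw [h] at this
  exact ha0 (le_antisymm this zero_le)

theorem foldc_Fm_self {c : Γ₀} (hc : c ≠ 0) : Fm c c = 1 := by
  unfold Fm
  rw [div_self hc, min_self]

theorem foldc_Fm_one_left {c : Γ₀} (hc : c ≤ 1) (hc0 : c ≠ 0) : Fm 1 c = c := by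
  unfold Fm
  rw [div_one, min_eq_right]
  rw [le_div_iff₀ (zero_lt_iff.mpr hc0)]
  calc c * c ≤ 1 * 1 := mul_le_mul' hc hc
    _ = 1 := one_mul 1

theorem foldc_Fm_one_right {c : Γ₀} (hc : c ≤ 1) (hc0 : c ≠ 0) : Fm c 1 = c := by
  unfold Fm
  rw [div_one, min_eq_left]
  rw [le_div_iff₀ (zero_lt_iff.mpr hc0)]
  calc c * c ≤ 1 * 1 := mul_le_mul' hc hc
    _ = 1 := one_mul 1

theorem foldc_Fp_one_left {a c : Γ₀} (hac : a ≤ c) (hc0 : c ≠ 0) : Fp a 1 c = c := by
  unfold Fp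
  rw [one_mul, max_eq_left]
  rw [div_le_iff₀ (zero_lt_iff.mpr hc0), sq]
  exact mul_le_mul' hac hac

theorem foldc_Fp_one_right {a c : Γ₀} (hac : a ≤ c) (hc0 : c ≠ 0) : Fp a c 1 = c := by
  unfold Fp
  rw [mul_one, max_eq_left]
  rw [div_le_iff₀ (zero_lt_iff.mpr hc0), sq]
  exact mul_le_mul' hac hac

end aux

section curve

variable {K : Type*} [Field K] [DecidableEq K] {Γ₀ : Type*} [LinearOrderedCommGroupWithZero Γ₀]
  (v : Valuation K Γ₀) (W : WeierstrassCurve K)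

omit [DecidableEq K] in
/-- the `b`-invariants of a curve whose `2`-division polynomial is
`4 (x - e) (x - e - α) (x - e + β)` -/
theorem foldc_b_of_factor {e α β : K} (h2 : (2 : K) ≠ 0)
    (hf : ∀ x : K, 4 * x ^ 3 + W.b₂ * x ^ 2 + 2 * W.b₄ * x + W.b₆ =
      4 * ((x - e) * (x - e - α) * (x - e + β))) :
    W.b₂ = 4 * (β - α) - 12 * e ∧
    W.b₄ = 6 * e ^ 2 - 4 * e * (β - α) - 2 * α * β ∧
    W.b₆ = -4 * e ^ 3 + 4 * (β - α) * e ^ 2 + 4 * α * β * e ∧
    W.b₈ = -α ^ 2 * β ^ 2 - 6 * e ^ 2 * α * β - 4 * e ^ 3 * (β - α) + 3 * e ^ 4 := by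
  have h0 := hf 0
  have h1 := hf 1
  have hm := hf (-1)
  have h4 : (4 : K) ≠ 0 := by
    have : (4 : K) = 2 * 2 := by norm_num
    rw [this]; exact mul_ne_zero h2 h2
  have hb6 : W.b₆ = -4 * e ^ 3 + 4 * (β - α) * e ^ 2 + 4 * α * β * e := by
    linear_combination h0
  have hb2 : W.b₂ = 4 * (β - α) - 12 * e := by
    apply mul_left_cancel₀ h2
    linear_combination h1 + hm - 2 * h0
  have hb4 : W.b₄ = 6 * e ^ 2 - 4 * e * (β - α) - 2 * α * β := by
    apply mul_left_cancel₀ h4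
    linear_combination h1 - hm
  refine ⟨hb2, hb4, hb6, ?_⟩
  have hrel := W.b_relation
  rw [hb2, hb4, hb6] at hrel
  apply mul_left_cancel₀ h4
  linear_combination hrel

/-- **P6**, relative form: the folding lemma (XL) for all pairs of points, from the statements
of P1 (`hxonly`) and P5 (`hfold`, `hdouble`, `htwo`). -/
theorem fold_curve_of
    (hxonly : ∀ {x₁ y₁ x₂ y₂ : K} (h₁ : W.toAffine.Nonsingular x₁ y₁)
      (h₂ : W.toAffine.Nonsingular x₂ y₂) (_ : x₁ ≠ x₂),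
      ∃ (x₃ y₃ x₄ y₄ : K) (h₃ : W.toAffine.Nonsingular x₃ y₃)
        (h₄ : W.toAffine.Nonsingular x₄ y₄),
        Affine.Point.some x₁ y₁ h₁ + Affine.Point.some x₂ y₂ h₂ = Affine.Point.some x₃ y₃ h₃ ∧
        Affine.Point.some x₁ y₁ h₁ - Affine.Point.some x₂ y₂ h₂ = Affine.Point.some x₄ y₄ h₄ ∧
        (x₃ + x₄) * (x₁ - x₂) ^ 2 =
          2 * x₁ * x₂ * (x₁ + x₂) + W.b₂ * x₁ * x₂ + W.b₄ * (x₁ + x₂) + W.b₆ ∧
        x₃ * x₄ * (x₁ - x₂) ^ 2 =
          x₁ ^ 2 * x₂ ^ 2 - W.b₄ * x₁ * x₂ - W.b₆ * (x₁ + x₂) - W.b₈)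
    {e α β : K} (hα : v α < 1) (hα0 : α ≠ 0) (h2 : v (2 : K) = 1)
    (hfold : ∀ {x₁ x₂ r₁ r₂ : K} (_ : x₁ ≠ x₂)
      (_ : (r₁ + r₂) * (x₁ - x₂) ^ 2 =
        2 * ((x₁ + x₂) * (x₁ * x₂ - α * β) + 2 * (β - α) * x₁ * x₂))
      (_ : r₁ * r₂ * (x₁ - x₂) ^ 2 = (x₁ * x₂ + α * β) ^ 2),
      (cb v (v α) r₁ = Fp (v α) (cb v (v α) x₁) (cb v (v α) x₂) ∧
        cb v (v α) r₂ = Fm (cb v (v α) x₁) (cb v (v α) x₂)) ∨
      (cb v (v α) r₁ = Fm (cb v (v α) x₁) (cb v (v α) x₂) ∧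
        cb v (v α) r₂ = Fp (v α) (cb v (v α) x₁) (cb v (v α) x₂)))
    (hdouble : ∀ {x r : K} (_ : x * (x - α) * (x + β) ≠ 0)
      (_ : r * (4 * (x * (x - α) * (x + β))) = (x ^ 2 + α * β) ^ 2),
      cb v (v α) r = Fp (v α) (cb v (v α) x) (cb v (v α) x))
    (htwo : ∀ {x : K} (_ : x * (x - α) * (x + β) = 0),
      Fp (v α) (cb v (v α) x) (cb v (v α) x) = 1)
    (hf : ∀ x : K, 4 * x ^ 3 + W.b₂ * x ^ 2 + 2 * W.b₄ * x + W.b₆ =
      4 * ((x - e) * (x - e - α) * (x - e + β)))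
    (P Q : W.toAffine.Point) :
    (cbarP v W e α (P + Q) = Fp (v α) (cbarP v W e α P) (cbarP v W e α Q) ∧
      cbarP v W e α (P - Q) = Fm (cbarP v W e α P) (cbarP v W e α Q)) ∨
    (cbarP v W e α (P + Q) = Fm (cbarP v W e α P) (cbarP v W e α Q) ∧
      cbarP v W e α (P - Q) = Fp (v α) (cbarP v W e α P) (cbarP v W e α Q)) := by
  have h2' : (2 : K) ≠ 0 := by
    intro h
    rw [h, map_zero] at h2
    exact zero_ne_one h2
  have h4' : (4 : K) ≠ 0 := by
    have : (4 : K) = 2 * 2 := by norm_num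
    rw [this]; exact mul_ne_zero h2' h2'
  obtain ⟨hb2, hb4, hb6, hb8⟩ := foldc_b_of_factor W h2' hf
  have ha1 : v α ≤ 1 := hα.le
  have ha0 : v α ≠ 0 := (Valuation.ne_zero_iff v).mpr hα0
  -- general facts on `cbarP`
  have hc1 : ∀ R : W.toAffine.Point, cbarP v W e α R ≤ 1 := by
    rintro (_ | ⟨x, y, h⟩)
    · exact le_rfl
    · exact foldc_cb_le_one v ha1 _
  have hca : ∀ R : W.toAffine.Point, v α ≤ cbarP v W e α R := by
    rintro (_ | ⟨x, y, h⟩)
    · exact ha1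
    · exact foldc_le_cb v ha1 _
  have hc0 : ∀ R : W.toAffine.Point, cbarP v W e α R ≠ 0 := by
    intro R h
    have := hca R
    rw [h] at this
    exact ha0 (le_antisymm this zero_le)
  have hneg : ∀ R : W.toAffine.Point, cbarP v W e α (-R) = cbarP v W e α R := by
    rintro (_ | ⟨x, y, h⟩)
    · rfl
    · rfl
  -- the doubling formula
  have hdbl : ∀ R : W.toAffine.Point,
      cbarP v W e α (R + R) = Fp (v α) (cbarP v W e α R) (cbarP v W e α R) := by
    rintro (_ | ⟨x, y, h⟩)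
    · change cbarP v W e α (0 + 0) = _
      rw [add_zero]
      change (1 : Γ₀) = Fp (v α) 1 1
      rw [foldc_Fp_one_left ha1 one_ne_zero]
    · rcases hR : (Affine.Point.some x y h + Affine.Point.some x y h : W.toAffine.Point)
        with _ | ⟨x', y', h'⟩
      · -- `2`-torsion
        have h0 := (Fermat.Agent.S51.add_self_eq_zero_iff W h).mp hR
        have h1 := hf x
        simp only [Fermat.Agent.S51.f2] at h0
        rw [h0] at h1
        have h3 : (x - e) * (x - e - α) * (x - e + β) = 0 := by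
          rcases mul_eq_zero.mp h1.symm with h | h
          · exact absurd h h4'
          · exact h
        exact (htwo h3).symm
      · obtain ⟨hx', hne⟩ := Fermat.Agent.S51.add_self_x W h h' hR
        simp only [Fermat.Agent.S51.f2, Fermat.Agent.S51.phi2] at hx' hne
        have h1 := hf x
        have h3 : (x - e) * (x - e - α) * (x - e + β) ≠ 0 := by
          intro h3
          rw [h3, mul_zero] at h1
          exact hne h1
        refine hdouble h3 ?_
        rw [hb2, hb4, hb6, hb8] at hx'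
        linear_combination hx'
  rcases P with _ | ⟨x₁, y₁, h₁⟩
  · -- `P = 0`
    left
    change cbarP v W e α (0 + Q) = Fp (v α) 1 (cbarP v W e α Q) ∧
      cbarP v W e α (0 - Q) = Fm 1 (cbarP v W e α Q)
    rw [zero_add, zero_sub, hneg, foldc_Fp_one_left (hca Q) (hc0 Q),
      foldc_Fm_one_left (hc1 Q) (hc0 Q)]
    exact ⟨rfl, rfl⟩
  rcases Q with _ | ⟨x₂, y₂, h₂⟩
  · -- `Q = 0`
    left
    change cbarP v W e α (Affine.Point.some x₁ y₁ h₁ + 0) =
        Fp (v α) (cbarP v W e α (Affine.Point.some x₁ y₁ h₁)) 1 ∧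
      cbarP v W e α (Affine.Point.some x₁ y₁ h₁ - 0) =
        Fm (cbarP v W e α (Affine.Point.some x₁ y₁ h₁)) 1
    rw [add_zero, sub_zero, foldc_Fp_one_right (hca _) (hc0 _),
      foldc_Fm_one_right (hc1 _) (hc0 _)]
    exact ⟨rfl, rfl⟩
  by_cases hx : x₁ = x₂
  · rcases (Affine.Point.X_eq_iff (h₁ := h₁) (h₂ := h₂)).mp hx with h | h
    · -- `P = Q`
      left
      rw [← h, sub_self, hdbl, foldc_Fm_self (hc0 _)]
      exact ⟨rfl, rfl⟩
    · -- `P = -Q`
      right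
      have hQ : (Affine.Point.some x₂ y₂ h₂ : W.toAffine.Point) =
          -Affine.Point.some x₁ y₁ h₁ := by rw [h, neg_neg]
      rw [hQ, add_neg_cancel, sub_neg_eq_add, hdbl, hneg, foldc_Fm_self (hc0 _)]
      exact ⟨rfl, rfl⟩
  · obtain ⟨x₃, y₃, x₄, y₄, h₃, h₄, hadd, hsub, hS, hPi⟩ := hxonly h₁ h₂ hx
    rw [hadd, hsub]
    simp only [cbarP_some]
    refine hfold (x₁ := x₁ - e) (x₂ := x₂ - e) (fun h => hx (sub_left_injective h)) ?_ ?_
    · rw [hb2, hb4, hb6] at hS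
      linear_combination hS
    · rw [hb2, hb4, hb6] at hS
      rw [hb4, hb6, hb8] at hPi
      linear_combination hPi - e * hS

end curve

end Fermat.Agent.S05
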