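import Mathlib

/-!
# S05, piece P2: the Newton polygon of a quadratic, as pure valuation statements

`v : Valuation K Γ₀` is multiplicative (`v x ≤ 1` iff `x` integral).  For `r₁ + r₂ = S`,
`r₁ r₂ = Π`:

* `np_both_eq`   (NPa)  `v S ≤ s`, `v Π = s * s`  ⟹ `v r₁ = s` and `v r₂ = s`;
* `np_both_le`   (NPa') `v S ≤ s`, `v Π ≤ s * s`  ⟹ `v r₁ ≤ s` and `v r₂ ≤ s`;
* `np_split`     (NPb)  `v S = s`, `v Π ≤ s * t`, `t < s` ⟹ one root has `v = s` and the other
                        `v * s = v Π`;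
* `np_both_ge_one` (NPc) `1 ≤ v Π`, `v S ≤ v Π` ⟹ `1 ≤ v r₁` and `1 ≤ v r₂`.
-/

set_option autoImplicit false

namespace Fermat.Agent.S05

variable {K : Type*} [Field K] {Γ₀ : Type*} [LinearOrderedCommGroupWithZero Γ₀]
  (v : Valuation K Γ₀)

/-- if `v r₂ < v r₁` then `v (r₁ + r₂) = v r₁`; contrapositive form used below -/
theorem np_le_of_sum_le {r1 r2 : K} {s : Γ₀} (hS : v (r1 + r2) ≤ s) (h : v r2 < v r1) :
    v r1 ≤ s := by
  rw [Valuation.map_add_eq_of_lt_left v h] at hS
  exact hS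

/-- (NPa') both roots are small -/
theorem np_both_le {r1 r2 : K} {s : Γ₀} (hS : v (r1 + r2) ≤ s) (hP : v (r1 * r2) ≤ s * s) :
    v r1 ≤ s ∧ v r2 ≤ s := by
  rw [map_mul] at hP
  have key : ∀ a b : K, v (a + b) ≤ s → v a * v b ≤ s * s → v a ≤ s := by
    intro a b hab hmul
    by_contra hcon
    push Not at hcon
    have hb : v b < v a := by
      by_contra hb
      push Not at hb
      have h1 : s * s < v a * v b := by
        calc s * s < v a * v a := mul_lt_mul'' hcon hcon zero_le zero_le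
          _ ≤ v a * v b := by gcongr
      exact absurd hmul (not_le.2 h1)
    exact absurd (np_le_of_sum_le v hab hb) (not_le.2 hcon)
  refine ⟨key r1 r2 hS hP, key r2 r1 (by rwa [add_comm]) (by rwa [mul_comm])⟩

/-- (NPa) both roots have the same valuation -/
theorem np_both_eq {r1 r2 : K} {s : Γ₀} (hS : v (r1 + r2) ≤ s) (hP : v (r1 * r2) = s * s) :
    v r1 = s ∧ v r2 = s := by
  obtain ⟨h1, h2⟩ := np_both_le v hS hP.le
  rw [map_mul] at hP
  rcases eq_or_ne s 0 with hs | hs
  · subst hs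
    exact ⟨le_antisymm h1 zero_le, le_antisymm h2 zero_le⟩
  have hs' : 0 < s := zero_lt_iff.2 hs
  refine ⟨le_antisymm h1 ?_, le_antisymm h2 ?_⟩
  · by_contra hcon
    push Not at hcon
    have : v r1 * v r2 < s * s := by
      calc v r1 * v r2 ≤ v r1 * s := by gcongr
        _ < s * s := by gcongr
    exact absurd hP (ne_of_lt this)
  · by_contra hcon
    push Not at hcon
    have : v r1 * v r2 < s * s := by
      calc v r1 * v r2 ≤ s * v r2 := by gcongr
        _ < s * s := by gcongr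
    exact absurd hP (ne_of_lt this)

/-- (NPb) the two roots have different valuations `s` and `v Π / s` -/
theorem np_split {r1 r2 : K} {s t : Γ₀} (hS : v (r1 + r2) = s) (hP : v (r1 * r2) ≤ s * t)
    (ht : t < s) :
    (v r1 = s ∧ v r2 * s = v (r1 * r2)) ∨ (v r2 = s ∧ v r1 * s = v (r1 * r2)) := by
  have hs' : 0 < s := lt_of_le_of_lt zero_le ht
  have key : ∀ a b : K, v (a + b) = s → v (a * b) ≤ s * t → s ≤ v a →
      v a = s ∧ v b * s = v (a * b) := by
    intro a b hab hmul ha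
    rw [map_mul] at hmul
    have hb : v b < v a := by
      by_contra hb
      push Not at hb
      have h1 : s * t < v a * v b := by
        calc s * t < s * s := by gcongr
          _ ≤ v a * v a := mul_le_mul' ha ha
          _ ≤ v a * v b := by gcongr
      exact absurd hmul (not_le.2 h1)
    have h2 : v a = s := by
      rw [← hab, Valuation.map_add_eq_of_lt_left v hb]
    refine ⟨h2, ?_⟩
    rw [map_mul, h2, mul_comm]
  have hmax : s ≤ v r1 ∨ s ≤ v r2 := by
    by_contra hcon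
    push Not at hcon
    have := Valuation.map_add_lt v hcon.1 hcon.2
    rw [hS] at this
    exact lt_irrefl _ this
  rcases hmax with h | h
  · exact Or.inl (key r1 r2 hS hP h)
  · right
    have := key r2 r1 (by rwa [add_comm]) (by rwa [mul_comm]) h
    rwa [mul_comm r2 r1] at this

/-- (NPc) both roots are large (`v ≥ 1`) -/
theorem np_both_ge_one {r1 r2 : K} (hP : 1 ≤ v (r1 * r2)) (hS : v (r1 + r2) ≤ v (r1 * r2)) :
    1 ≤ v r1 ∧ 1 ≤ v r2 := by
  have key : ∀ a b : K, 1 ≤ v (a * b) → v (a + b) ≤ v (a * b) → 1 ≤ v a := by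
    intro a b hmul hab
    by_contra hcon
    push Not at hcon
    have ha0 : v a ≠ 0 := by
      intro h0
      rw [map_mul, h0, zero_mul] at hmul
      exact absurd hmul (not_le.2 zero_lt_one)
    have hb0 : v b ≠ 0 := by
      intro h0
      rw [map_mul, h0, mul_zero] at hmul
      exact absurd hmul (not_le.2 zero_lt_one)
    have hb0' : 0 < v b := zero_lt_iff.2 hb0
    -- `v (a b) < v b`
    have h1 : v (a * b) < v b := by
      rw [map_mul]
      calc v a * v b < 1 * v b := by gcongr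
        _ = v b := one_mul _
    have h2 : v a < v b := lt_of_lt_of_le hcon (le_trans hmul h1.le)
    have h3 : v (a + b) = v b := Valuation.map_add_eq_of_lt_right v h2
    rw [h3] at hab
    exact absurd hab (not_le.2 h1)
  exact ⟨key r1 r2 hP hS, key r2 r1 (by rwa [mul_comm]) (by rwa [add_comm, mul_comm r2 r1])⟩

/-- (NPa), contract form -/
theorem np_eq {r₁ r₂ : K} {s : Γ₀} (hS : v (r₁ + r₂) ≤ s) (hP : v (r₁ * r₂) = s ^ 2) :
    v r₁ = s ∧ v r₂ = s :=
  np_both_eq v hS (by rw [hP, sq])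

/-- (NPb), contract form -/
theorem np_lt {r₁ r₂ : K} {s t : Γ₀} (hS : v (r₁ + r₂) = s) (hP : v (r₁ * r₂) ≤ s * t)
    (hts : t < s) :
    (v r₁ = s ∧ v (r₁ * r₂) = s * v r₂) ∨ (v r₂ = s ∧ v (r₁ * r₂) = s * v r₁) := by
  rcases np_split v hS hP hts with ⟨h1, h2⟩ | ⟨h1, h2⟩
  · exact Or.inl ⟨h1, by rw [← h2, mul_comm]⟩
  · exact Or.inr ⟨h1, by rw [← h2, mul_comm]⟩

/-- (NPa'), with squares -/
theorem np_le {r₁ r₂ : K} {s : Γ₀} (hS : v (r₁ + r₂) ≤ s) (hP : v (r₁ * r₂) ≤ s ^ 2) :
    v r₁ ≤ s ∧ v r₂ ≤ s :=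
  np_both_le v hS (by rwa [sq] at hP)

end Fermat.Agent.S05
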