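import Mathlib
import Fermat.Agent.S05.Defs

/-!
# S05, piece P5 (doubling part): the folding lemma for `2 P`, as a pure valuation statement

For the curve `y² = x (x - α) (x + β)` (`v α < 1`, `v β = v (α + β) = v 2 = 1`; node at `x = 0`)
the `x`-coordinate of `2 P` is `r = (x² + α β)² / (4 x (x - α) (x + β))`.
`fold_val_double`: `cb r = Fp a c c` with `c = cb x`, `a = v α`.
`fold_val_two`: at the `2`-torsion points `x ∈ {0, α, -β}` the value `Fp a c c` is `1`.
-/

set_option autoImplicit false
set_option linter.unusedVariables false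

namespace Fermat.Agent.S05

variable {K : Type*} [Field K] {Γ₀ : Type*} [LinearOrderedCommGroupWithZero Γ₀]
  (v : Valuation K Γ₀)

namespace FoldValDouble

variable {v}

theorem sq_lt_self {a : Γ₀} (h0 : a ≠ 0) (h1 : a < 1) : a ^ 2 < a := by
  have hpos : 0 < a := zero_lt_iff.mpr h0
  calc a ^ 2 = a * a := sq a
    _ < a * 1 := by gcongr
    _ = a := mul_one a

theorem sq_le_one {a : Γ₀} (h1 : a ≤ 1) : a ^ 2 ≤ 1 := by
  calc a ^ 2 = a * a := sq a
    _ ≤ 1 * 1 := by gcongr
    _ = 1 := mul_one 1

/-- `Fp a 1 1 = 1` -/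
theorem Fp_one_one {a : Γ₀} (h1 : a ≤ 1) : Fp a 1 1 = 1 := by
  unfold Fp
  rw [mul_one, div_one]
  exact max_eq_left (sq_le_one h1)

/-- `Fp a a a = 1` -/
theorem Fp_self_self {a : Γ₀} (h0 : a ≠ 0) (h1 : a ≤ 1) : Fp a a a = 1 := by
  unfold Fp
  have h : a ^ 2 / (a * a) = 1 := by
    rw [← sq]
    exact div_self (pow_ne_zero 2 h0)
  rw [h]
  apply max_eq_right
  rw [← sq]
  exact sq_le_one h1

theorem cb_of_one_le {a : Γ₀} {x : K} (h : 1 ≤ v x) : cb v a x = 1 := by
  unfold cb
  rw [if_neg (not_lt.mpr h)]

theorem cb_of_le {a : Γ₀} {x : K} (h1 : a < 1) (h : v x ≤ a) : cb v a x = a := by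
  unfold cb
  rw [if_pos (lt_of_le_of_lt h h1)]
  exact max_eq_right h

theorem cb_of_mid {a : Γ₀} {x : K} (h : a ≤ v x) (h1 : v x < 1) : cb v a x = v x := by
  unfold cb
  rw [if_pos h1]
  exact max_eq_left h

end FoldValDouble

open FoldValDouble

/-- the `2`-torsion points: `x ∈ {0, α, -β}` -/
theorem fold_val_two {α β : K} (hα : v α < 1) (hα0 : α ≠ 0) (hβ : v β = 1)
    (hαβ : v (α + β) = 1) {x : K} (hx : x * (x - α) * (x + β) = 0) :
    Fp (v α) (cb v (v α) x) (cb v (v α) x) = 1 := by
  have ha0 : v α ≠ 0 := (Valuation.ne_zero_iff v).mpr hα0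
  rcases mul_eq_zero.mp hx with h | h
  · rcases mul_eq_zero.mp h with h | h
    · subst h
      rw [cb_of_le hα (by rw [Valuation.map_zero]; exact zero_le)]
      exact Fp_self_self ha0 hα.le
    · have hxα : x = α := sub_eq_zero.mp h
      subst hxα
      rw [cb_of_le hα le_rfl]
      exact Fp_self_self ha0 hα.le
  · have hxβ : x = -β := eq_neg_of_add_eq_zero_left h
    subst hxβ
    rw [cb_of_one_le (by rw [Valuation.map_neg, hβ])]
    exact Fp_one_one hα.le

theorem fold_val_double {α β : K} (hα : v α < 1) (hα0 : α ≠ 0) (hβ : v β = 1)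
    (hαβ : v (α + β) = 1) (h2 : v (2 : K) = 1) {x r : K}
    (hne : x * (x - α) * (x + β) ≠ 0)
    (hr : r * (4 * (x * (x - α) * (x + β))) = (x ^ 2 + α * β) ^ 2) :
    cb v (v α) r = Fp (v α) (cb v (v α) x) (cb v (v α) x) := by
  have ha0 : v α ≠ 0 := (Valuation.ne_zero_iff v).mpr hα0
  have hapos : 0 < v α := zero_lt_iff.mpr ha0
  have hx0 : x ≠ 0 := fun h => hne (by rw [h]; ring)
  have hX0 : v x ≠ 0 := (Valuation.ne_zero_iff v).mpr hx0
  have hXpos : 0 < v x := zero_lt_iff.mpr hX0
  have h4 : v (4 : K) = 1 := by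
    have : (4 : K) = 2 * 2 := by norm_num
    rw [this, Valuation.map_mul, h2, mul_one]
  have hvαβ : v (α * β) = v α := by rw [Valuation.map_mul, hβ, mul_one]
  have hden0 : v (x * (x - α) * (x + β)) ≠ 0 := (Valuation.ne_zero_iff v).mpr hne
  have hdenpos : 0 < v (x * (x - α) * (x + β)) := zero_lt_iff.mpr hden0
  -- the valuation of the relation
  have hrel : v r * v (x * (x - α) * (x + β)) = v (x ^ 2 + α * β) ^ 2 := by
    have := congrArg v hr
    rw [Valuation.map_mul, Valuation.map_mul, h4, one_mul, Valuation.map_pow] at this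
    exact this
  have hden : v (x * (x - α) * (x + β)) = v x * v (x - α) * v (x + β) := by
    rw [Valuation.map_mul, Valuation.map_mul]
  rcases le_or_gt 1 (v x) with hI | hlt1
  · -- type I : `1 ≤ v x`
    rw [cb_of_one_le hI, Fp_one_one hα.le]
    apply cb_of_one_le
    have hαx : v α < v x := lt_of_lt_of_le hα hI
    have hnum : v (x ^ 2 + α * β) = v x ^ 2 := by
      rw [← Valuation.map_pow]
      apply Valuation.map_add_eq_of_lt_left
      rw [hvαβ, Valuation.map_pow]
      calc v α < 1 := hα
        _ ≤ v x ^ 2 := one_le_pow₀ hI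
    have h1 : v (x - α) = v x := Valuation.map_sub_eq_of_lt_left v hαx
    have h2' : v (x + β) ≤ v x := Valuation.map_add_le v le_rfl (by rw [hβ]; exact hI)
    have hle : v (x * (x - α) * (x + β)) ≤ v (x ^ 2 + α * β) ^ 2 := by
      rw [hden, hnum, h1]
      calc v x * v x * v (x + β) ≤ v x * v x * v x := by gcongr
        _ = v x ^ 3 := by rw [pow_succ, sq]
        _ ≤ v x ^ 4 := pow_le_pow_right₀ hI (by norm_num)
        _ = (v x ^ 2) ^ 2 := by rw [← pow_mul]
    rw [← hrel] at hle
    by_contra hcon
    push Not at hcon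
    have : v r * v (x * (x - α) * (x + β)) < 1 * v (x * (x - α) * (x + β)) := by gcongr
    rw [one_mul] at this
    exact absurd hle (not_le.mpr this)
  · rcases lt_or_ge (v α) (v x) with hM | hL
    · -- type M : `v α < v x < 1`
      rw [cb_of_mid hM.le hlt1]
      have h1 : v (x - α) = v x := Valuation.map_sub_eq_of_lt_left v hM
      have h2' : v (x + β) = 1 := by
        rw [← hβ]
        apply Valuation.map_add_eq_of_lt_right
        rw [hβ]; exact hlt1
      have hden' : v (x * (x - α) * (x + β)) = v x ^ 2 := by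
        rw [hden, h1, h2', mul_one, sq]
      rw [hden'] at hrel
      have hX2pos : 0 < v x ^ 2 := pow_pos hXpos 2
      have hX2lt : v x ^ 2 < 1 := pow_lt_one₀ zero_le hlt1 (by norm_num)
      have ha2 : v α ^ 2 < v x ^ 2 := by gcongr
      rcases lt_trichotomy (v α) (v x ^ 2) with hlt | heq | hgt
      · -- `v α < (v x)²`
        have hnum : v (x ^ 2 + α * β) = v x ^ 2 := by
          rw [← Valuation.map_pow]
          apply Valuation.map_add_eq_of_lt_left
          rw [hvαβ, Valuation.map_pow]; exact hlt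
        rw [hnum] at hrel
        have hvr : v r = v x ^ 2 := by
          have h3 : v r * v x ^ 2 = v x ^ 2 * v x ^ 2 := by rw [hrel, sq (v x ^ 2)]
          exact mul_right_cancel₀ (pow_ne_zero 2 hX0) h3
        rw [cb_of_mid (by rw [hvr]; exact hlt.le) (by rw [hvr]; exact hX2lt), hvr]
        unfold Fp
        rw [← sq]
        refine (max_eq_left ?_).symm
        rw [div_le_iff₀ hX2pos]
        calc v α ^ 2 = v α * v α := sq _
          _ ≤ v x ^ 2 * v x ^ 2 := by gcongr
      · -- `v α = (v x)²`
        have hnum : v (x ^ 2 + α * β) ≤ v α := by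
          apply Valuation.map_add_le
          · rw [Valuation.map_pow, heq]
          · rw [hvαβ]
        have hvr : v r ≤ v α := by
          have h3 : v r * v x ^ 2 ≤ v α * v x ^ 2 := by
            rw [hrel]
            calc v (x ^ 2 + α * β) ^ 2 ≤ v α ^ 2 := by gcongr
              _ = v α * v α := sq _
              _ = v α * v x ^ 2 := by rw [← heq]
          exact le_of_mul_le_mul_right h3 hX2pos
        rw [cb_of_le hα hvr]
        unfold Fp
        rw [← sq, ← heq]
        have : v α ^ 2 / v α = v α := by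
          rw [sq, mul_div_assoc, div_self ha0, mul_one]
        rw [this, max_self]
      · -- `(v x)² < v α`
        have hnum : v (x ^ 2 + α * β) = v α := by
          rw [← hvαβ]
          apply Valuation.map_add_eq_of_lt_right
          rw [hvαβ, Valuation.map_pow]; exact hgt
        rw [hnum] at hrel
        have hvr : v r = v α ^ 2 / v x ^ 2 := by
          rw [eq_div_iff (pow_ne_zero 2 hX0)]; exact hrel
        have hvr1 : v r < 1 := by
          rw [hvr, div_lt_iff₀ hX2pos, one_mul]; exact ha2
        have hvr2 : v α ≤ v r := by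
          rw [hvr, le_div_iff₀ hX2pos]
          calc v α * v x ^ 2 ≤ v α * v α := by gcongr
            _ = v α ^ 2 := (sq _).symm
        rw [cb_of_mid hvr2 hvr1, hvr]
        unfold Fp
        rw [← sq]
        refine (max_eq_right ?_).symm
        calc v x ^ 2 ≤ v α := hgt.le
          _ ≤ v r := hvr2
          _ = v α ^ 2 / v x ^ 2 := hvr
    · -- type L : `v x ≤ v α`
      rw [cb_of_le hα hL, Fp_self_self ha0 hα.le]
      apply cb_of_one_le
      have hnum : v (x ^ 2 + α * β) = v α := by
        rw [← hvαβ]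
        apply Valuation.map_add_eq_of_lt_right
        rw [hvαβ, Valuation.map_pow]
        calc v x ^ 2 ≤ v α ^ 2 := by gcongr
          _ < v α := sq_lt_self ha0 hα
      have h1 : v (x - α) ≤ v α := Valuation.map_sub_le v hL le_rfl
      have h2' : v (x + β) = 1 := by
        rw [← hβ]
        apply Valuation.map_add_eq_of_lt_right
        rw [hβ]; exact hlt1
      have hle : v (x * (x - α) * (x + β)) ≤ v (x ^ 2 + α * β) ^ 2 := by
        rw [hden, hnum, h2', mul_one, sq]
        gcongr
      rw [← hrel] at hle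
      by_contra hcon
      push Not at hcon
      have : v r * v (x * (x - α) * (x + β)) < 1 * v (x * (x - α) * (x + β)) := by gcongr
      rw [one_mul] at this
      exact absurd hle (not_le.mpr this)

end Fermat.Agent.S05
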