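import Mathlib

/-!
# S05, piece P1: `x`-only identities for `P + Q` and `P - Q`

For nonsingular points `P = (x₁, y₁)`, `Q = (x₂, y₂)` with `x₁ ≠ x₂` on a Weierstrass curve over
a field, `P + Q = (x₃, _)` and `P - Q = (x₄, _)` are affine and
* `(x₃ + x₄) (x₁ - x₂)² = 2 x₁ x₂ (x₁ + x₂) + b₂ x₁ x₂ + b₄ (x₁ + x₂) + b₆`,
* `x₃ x₄ (x₁ - x₂)² = x₁² x₂² - b₄ x₁ x₂ - b₆ (x₁ + x₂) - b₈`.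
-/

set_option autoImplicit false

open WeierstrassCurve

namespace Fermat.Agent.S05

variable {K : Type*} [Field K] [DecidableEq K] (W : WeierstrassCurve K)

/-- the `x`-coordinate of `P + Q` for `x₁ ≠ x₂`, multiplied by `(x₁ - x₂)²` -/
theorem addX_mul_sq {x₁ y₁ x₂ y₂ : K} (hx : x₁ ≠ x₂) :
    W.toAffine.addX x₁ x₂ (W.toAffine.slope x₁ x₂ y₁ y₂) * (x₁ - x₂) ^ 2 =
      (y₁ - y₂) ^ 2 + W.a₁ * (y₁ - y₂) * (x₁ - x₂) - (W.a₂ + x₁ + x₂) * (x₁ - x₂) ^ 2 := by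
  have hd : x₁ - x₂ ≠ 0 := sub_ne_zero.mpr hx
  have hℓ : W.toAffine.slope x₁ x₂ y₁ y₂ * (x₁ - x₂) = y₁ - y₂ := by
    rw [Affine.slope_of_X_ne hx]
    exact div_mul_cancel₀ _ hd
  rw [Affine.addX]
  generalize W.toAffine.slope x₁ x₂ y₁ y₂ = ℓ at hℓ
  linear_combination (ℓ * (x₁ - x₂) + (y₁ - y₂) + W.a₁ * (x₁ - x₂)) * hℓ

omit [DecidableEq K] in
/-- the pure polynomial identities behind `add_sub_x` -/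
theorem xonly_poly (a₁ a₂ a₃ a₄ a₆ x₁ y₁ x₂ y₂ : K)
    (e₁ : y₁ ^ 2 + a₁ * x₁ * y₁ + a₃ * y₁ = x₁ ^ 3 + a₂ * x₁ ^ 2 + a₄ * x₁ + a₆)
    (e₂ : y₂ ^ 2 + a₁ * x₂ * y₂ + a₃ * y₂ = x₂ ^ 3 + a₂ * x₂ ^ 2 + a₄ * x₂ + a₆) :
    ((y₁ - y₂) ^ 2 + a₁ * (y₁ - y₂) * (x₁ - x₂) - (a₂ + x₁ + x₂) * (x₁ - x₂) ^ 2) +
      ((y₁ - (-y₂ - a₁ * x₂ - a₃)) ^ 2 + a₁ * (y₁ - (-y₂ - a₁ * x₂ - a₃)) * (x₁ - x₂)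
        - (a₂ + x₁ + x₂) * (x₁ - x₂) ^ 2) =
      2 * x₁ * x₂ * (x₁ + x₂) + (a₁ ^ 2 + 4 * a₂) * x₁ * x₂ + (2 * a₄ + a₁ * a₃) * (x₁ + x₂)
        + (a₃ ^ 2 + 4 * a₆) ∧
    ((y₁ - y₂) ^ 2 + a₁ * (y₁ - y₂) * (x₁ - x₂) - (a₂ + x₁ + x₂) * (x₁ - x₂) ^ 2) *
      ((y₁ - (-y₂ - a₁ * x₂ - a₃)) ^ 2 + a₁ * (y₁ - (-y₂ - a₁ * x₂ - a₃)) * (x₁ - x₂)
        - (a₂ + x₁ + x₂) * (x₁ - x₂) ^ 2) =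
      (x₁ ^ 2 * x₂ ^ 2 - (2 * a₄ + a₁ * a₃) * x₁ * x₂ - (a₃ ^ 2 + 4 * a₆) * (x₁ + x₂)
        - (a₁ ^ 2 * a₆ + 4 * a₂ * a₆ - a₁ * a₃ * a₄ + a₂ * a₃ ^ 2 - a₄ ^ 2)) * (x₁ - x₂) ^ 2 := by
  constructor
  · linear_combination 2 * e₁ + 2 * e₂
  · linear_combination (a₁ ^ 2 * x₁ * x₂ - a₁ ^ 2 * x₂ ^ 2 + a₁ * a₃ * x₁ - a₁ * a₃ * x₂
      + a₁ * x₁ * y₁ - 2 * a₁ * x₂ * y₂ - a₂ * x₁ ^ 2 + 4 * a₂ * x₁ * x₂ - 2 * a₂ * x₂ ^ 2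
      + a₃ * y₁ - 2 * a₃ * y₂ + a₄ * x₁ + a₆ - x₁ ^ 3 + 2 * x₁ ^ 2 * x₂ + 2 * x₁ * x₂ ^ 2
      - 2 * x₂ ^ 3 + y₁ ^ 2 - 2 * y₂ ^ 2) * e₁
      + (-a₁ ^ 2 * x₁ ^ 2 + a₁ ^ 2 * x₁ * x₂ - a₁ * a₃ * x₁ + a₁ * a₃ * x₂ + a₁ * x₂ * y₂
      - 4 * a₂ * x₁ ^ 2 + 4 * a₂ * x₁ * x₂ - a₂ * x₂ ^ 2 + a₃ * y₂ - 2 * a₄ * x₁ + a₄ * x₂ - a₆
      - 4 * x₁ ^ 3 + 2 * x₁ ^ 2 * x₂ + 2 * x₁ * x₂ ^ 2 - x₂ ^ 3 + y₂ ^ 2) * e₂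

/-- **P1**: the `x`-coordinates `x₃ = x(P + Q)`, `x₄ = x(P - Q)` for `x(P) ≠ x(Q)`. -/
theorem add_sub_x {x₁ y₁ x₂ y₂ x₃ y₃ x₄ y₄ : K} (h₁ : W.toAffine.Nonsingular x₁ y₁)
    (h₂ : W.toAffine.Nonsingular x₂ y₂) (h₃ : W.toAffine.Nonsingular x₃ y₃)
    (h₄ : W.toAffine.Nonsingular x₄ y₄) (hx : x₁ ≠ x₂)
    (hadd : Affine.Point.some x₁ y₁ h₁ + Affine.Point.some x₂ y₂ h₂ = Affine.Point.some x₃ y₃ h₃)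
    (hsub : Affine.Point.some x₁ y₁ h₁ - Affine.Point.some x₂ y₂ h₂ = Affine.Point.some x₄ y₄ h₄) :
    (x₃ + x₄) * (x₁ - x₂) ^ 2 =
        2 * x₁ * x₂ * (x₁ + x₂) + W.b₂ * x₁ * x₂ + W.b₄ * (x₁ + x₂) + W.b₆ ∧
      x₃ * x₄ * (x₁ - x₂) ^ 2 =
        x₁ ^ 2 * x₂ ^ 2 - W.b₄ * x₁ * x₂ - W.b₆ * (x₁ + x₂) - W.b₈ := by
  have hd : x₁ - x₂ ≠ 0 := sub_ne_zero.mpr hx
  have e₁ := h₁.1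
  have e₂ := h₂.1
  rw [Affine.equation_iff] at e₁ e₂
  -- `x₃`
  rw [Affine.Point.add_of_X_ne hx] at hadd
  have hx3 : x₃ = W.toAffine.addX x₁ x₂ (W.toAffine.slope x₁ x₂ y₁ y₂) := by
    injection hadd with h _
    exact h.symm
  -- `x₄`
  rw [sub_eq_add_neg, Affine.Point.neg_some, Affine.Point.add_of_X_ne hx] at hsub
  have hx4 : x₄ = W.toAffine.addX x₁ x₂ (W.toAffine.slope x₁ x₂ y₁ (W.toAffine.negY x₂ y₂)) := by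
    injection hsub with h _
    exact h.symm
  have k3 := addX_mul_sq W (y₁ := y₁) (y₂ := y₂) hx
  have k4 := addX_mul_sq W (y₁ := y₁) (y₂ := W.toAffine.negY x₂ y₂) hx
  rw [← hx3] at k3
  rw [← hx4, Affine.negY] at k4
  obtain ⟨p1, p2⟩ := xonly_poly W.a₁ W.a₂ W.a₃ W.a₄ W.a₆ x₁ y₁ x₂ y₂ e₁ e₂
  rw [← k3, ← k4] at p1 p2
  simp only [b₂, b₄, b₆, b₈]
  refine ⟨?_, ?_⟩
  · linear_combination p1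
  · apply mul_right_cancel₀ (pow_ne_zero 2 hd)
    linear_combination p2

/-- for `x(P) ≠ x(Q)` both `P + Q` and `P - Q` are affine points -/
theorem exists_add_sub {x₁ y₁ x₂ y₂ : K} (h₁ : W.toAffine.Nonsingular x₁ y₁)
    (h₂ : W.toAffine.Nonsingular x₂ y₂) (hx : x₁ ≠ x₂) :
    ∃ (x₃ y₃ x₄ y₄ : K) (h₃ : W.toAffine.Nonsingular x₃ y₃) (h₄ : W.toAffine.Nonsingular x₄ y₄),
      Affine.Point.some x₁ y₁ h₁ + Affine.Point.some x₂ y₂ h₂ = Affine.Point.some x₃ y₃ h₃ ∧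
      Affine.Point.some x₁ y₁ h₁ - Affine.Point.some x₂ y₂ h₂ = Affine.Point.some x₄ y₄ h₄ ∧
      (x₃ + x₄) * (x₁ - x₂) ^ 2 =
        2 * x₁ * x₂ * (x₁ + x₂) + W.b₂ * x₁ * x₂ + W.b₄ * (x₁ + x₂) + W.b₆ ∧
      x₃ * x₄ * (x₁ - x₂) ^ 2 =
        x₁ ^ 2 * x₂ ^ 2 - W.b₄ * x₁ * x₂ - W.b₆ * (x₁ + x₂) - W.b₈ := by
  have ha := Affine.Point.add_of_X_ne (W := W.toAffine) (h₁ := h₁) (h₂ := h₂) hx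
  have hs0 := Affine.Point.add_of_X_ne (W := W.toAffine) (h₁ := h₁)
    (h₂ := (Affine.nonsingular_neg ..).mpr h₂) hx
  rw [← Affine.Point.neg_some h₂, ← sub_eq_add_neg] at hs0
  exact ⟨_, _, _, _, _, _, ha, hs0, add_sub_x W h₁ h₂ _ _ hx ha hs0⟩

/-- **P1**, exact contract form (`NOTES/S05_statements.lean.txt`) -/
theorem xonly {x₁ y₁ x₂ y₂ : K} (h₁ : W.toAffine.Nonsingular x₁ y₁)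
    (h₂ : W.toAffine.Nonsingular x₂ y₂) (hx : x₁ ≠ x₂) :
    ∃ (x₃ y₃ x₄ y₄ : K) (h₃ : W.toAffine.Nonsingular x₃ y₃) (h₄ : W.toAffine.Nonsingular x₄ y₄),
      Affine.Point.some x₁ y₁ h₁ + Affine.Point.some x₂ y₂ h₂ = Affine.Point.some x₃ y₃ h₃ ∧
      Affine.Point.some x₁ y₁ h₁ - Affine.Point.some x₂ y₂ h₂ = Affine.Point.some x₄ y₄ h₄ ∧
      (x₃ + x₄) * (x₁ - x₂) ^ 2 =
        2 * x₁ * x₂ * (x₁ + x₂) + W.b₂ * x₁ * x₂ + W.b₄ * (x₁ + x₂) + W.b₆ ∧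
      x₃ * x₄ * (x₁ - x₂) ^ 2 =
        x₁ ^ 2 * x₂ ^ 2 - W.b₄ * x₁ * x₂ - W.b₆ * (x₁ + x₂) - W.b₈ :=
  exists_add_sub W h₁ h₂ hx

end Fermat.Agent.S05
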