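import Mathlib
import Fermat.Agent.S05.FoldCurve
import Fermat.Agent.S05.XOnly
import Fermat.Agent.S05.FoldVal
import Fermat.Agent.S05.FoldValDouble

/-!
# S05, piece P6 (final form): the folding lemma (XL) on the points of a Weierstrass curve

`fold_curve`: exact contract of `NOTES/S05_statements.lean.txt`, obtained from `fold_curve_of`
(`FoldCurve.lean`), P1 (`exists_add_sub`, `XOnly.lean`) and P5 (`fold_val`, `FoldVal.lean`;
`fold_val_double`, `fold_val_two`, `FoldValDouble.lean`).
-/

set_option autoImplicit false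

open WeierstrassCurve

namespace Fermat.Agent.S05

variable {K : Type*} [Field K] [DecidableEq K] {Γ₀ : Type*} [LinearOrderedCommGroupWithZero Γ₀]
  (v : Valuation K Γ₀) (W : WeierstrassCurve K)

/-- **P6**: the folding lemma (XL) for all pairs of points -/
theorem fold_curve {e α β : K} (hα : v α < 1) (hα0 : α ≠ 0) (hβ : v β = 1)
    (hαβ : v (α + β) = 1) (h2 : v (2 : K) = 1)
    (hf : ∀ x : K, 4 * x ^ 3 + W.b₂ * x ^ 2 + 2 * W.b₄ * x + W.b₆ =
      4 * ((x - e) * (x - e - α) * (x - e + β)))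
    (P Q : W.toAffine.Point) :
    (cbarP v W e α (P + Q) = Fp (v α) (cbarP v W e α P) (cbarP v W e α Q) ∧
      cbarP v W e α (P - Q) = Fm (cbarP v W e α P) (cbarP v W e α Q)) ∨
    (cbarP v W e α (P + Q) = Fm (cbarP v W e α P) (cbarP v W e α Q) ∧
      cbarP v W e α (P - Q) = Fp (v α) (cbarP v W e α P) (cbarP v W e α Q)) :=
  fold_curve_of v W (fun h₁ h₂ hx => exists_add_sub W h₁ h₂ hx) hα hα0 h2
    (fun hx hsum hprod => fold_val v hα hα0 hβ hαβ h2 hx hsum hprod)
    (fun hne hr => fold_val_double v hα hα0 hβ hαβ h2 hne hr)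
    (fun hx => fold_val_two v hα hα0 hβ hαβ hx) hf P Q

end Fermat.Agent.S05
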