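import Mathlib
import Fermat.Agent.S51.Double
import Fermat.Agent.S05.Defs
import Fermat.Agent.S05.XOnly

/-!
# S05, part P3: the kernel of reduction `E₁`

`K` a field with a valuation `v`, `W` an integral Weierstrass curve over `K`, and
`E₁ = {O} ∪ {(x, y) : 1 < v x}` (`InKer`).
* `inKer_sub`: `E₁` is closed under subtraction;
* `inKer_torsion`: `E₁` has no `p`-torsion if `v p = 1`.

Method: `t(P) = 1 / x(P)` (`formalT`, `t(O) = 0`) satisfies the parallelogram law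
`t(R + S) + t(R - S) ≡ 2 t(R) + 2 t(S)` modulo `s²` on the ball `{v(t) ≤ s}`, `s < 1`
(`formal_parallelogram`), hence `t(k P) ≡ k² t(P)` modulo `s²`, `s = v(t(P))`.
-/

set_option autoImplicit false

open WeierstrassCurve

namespace Fermat.Agent.S05

section val

variable {K : Type*} [Field K] {Γ₀ : Type*} [LinearOrderedCommGroupWithZero Γ₀]
  (v : Valuation K Γ₀)

/-- weak Newton polygon: if the sum and the product of two elements are small, so are they -/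
theorem formal_np {r₁ r₂ : K} {s : Γ₀} (hS : v (r₁ + r₂) ≤ s) (hP : v (r₁ * r₂) ≤ s * s) :
    v r₁ ≤ s ∧ v r₂ ≤ s := by
  have key : ∀ a b : K, v (a + b) ≤ s → v (a * b) ≤ s * s → v a ≤ s := by
    intro a b hS hP
    by_contra hcon
    push Not at hcon
    have hlt : v b < v a := by
      by_contra h
      push Not at h
      have h1 : s * s < v a * v b := by
        calc s * s < v a * v a := mul_lt_mul'' hcon hcon zero_le zero_le
          _ ≤ v a * v b := mul_le_mul_right h _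
      rw [map_mul] at hP
      exact absurd hP (not_le.mpr h1)
    have h2 : v (a + b) = v a := by
      rw [add_comm]
      exact Valuation.map_add_eq_of_lt_right v hlt
    rw [h2] at hS
    exact absurd hS (not_le.mpr hcon)
  exact ⟨key r₁ r₂ hS hP, key r₂ r₁ (by rwa [add_comm]) (by rwa [mul_comm])⟩

theorem formal_vmul {a b : K} {g h : Γ₀} (ha : v a ≤ g) (hb : v b ≤ h) : v (a * b) ≤ g * h := by
  rw [map_mul]
  exact mul_le_mul' ha hb

theorem formal_vmul1 {a b : K} (ha : v a ≤ 1) (hb : v b ≤ 1) : v (a * b) ≤ 1 := by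
  simpa using formal_vmul v ha hb

theorem formal_vnat (n : ℕ) : v (n : K) ≤ 1 := by
  have h : (n : K) ∈ v.integer := natCast_mem v.integer n
  exact h

theorem formal_v2 : v (2 : K) ≤ 1 := by
  have := formal_vnat v 2
  simpa using this

theorem formal_v4 : v (4 : K) ≤ 1 := by
  have := formal_vnat v 4
  simpa using this

theorem formal_ss_lt {s : Γ₀} (hs : s < 1) (hs0 : s ≠ 0) : s * s < s := by
  have h0 : 0 < s := zero_lt_iff.mpr hs0
  calc s * s < s * 1 := by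
        exact (mul_lt_mul_iff_right₀ h0).mpr hs
    _ = s := mul_one s

theorem formal_ss_le {s : Γ₀} (hs : s < 1) : s * s ≤ s := by
  calc s * s ≤ s * 1 := mul_le_mul_right hs.le s
    _ = s := mul_one s

/-- the sum case -/
theorem formal_val_add {b₂ b₄ b₆ b₈ : K} (hb₂ : v b₂ ≤ 1) (hb₄ : v b₄ ≤ 1) (hb₆ : v b₆ ≤ 1)
    (hb₈ : v b₈ ≤ 1) {s : Γ₀} (hs : s < 1) {x₁ x₂ x₃ x₄ : K} (hx₁ : x₁ ≠ 0) (hx₂ : x₂ ≠ 0)
    (h₁ : v x₁⁻¹ ≤ s) (h₂ : v x₂⁻¹ ≤ s)
    (hsum : (x₃ + x₄) * (x₁ - x₂) ^ 2 =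
      2 * x₁ * x₂ * (x₁ + x₂) + b₂ * x₁ * x₂ + b₄ * (x₁ + x₂) + b₆)
    (hprod : x₃ * x₄ * (x₁ - x₂) ^ 2 = x₁ ^ 2 * x₂ ^ 2 - b₄ * x₁ * x₂ - b₆ * (x₁ + x₂) - b₈) :
    x₃ ≠ 0 ∧ x₄ ≠ 0 ∧ v x₃⁻¹ ≤ s ∧ v x₄⁻¹ ≤ s ∧
      v (x₃⁻¹ + x₄⁻¹ - 2 * x₁⁻¹ - 2 * x₂⁻¹) ≤ s * s := by
  have hA : (x₃ + x₄) * (x₂⁻¹ - x₁⁻¹) ^ 2 = 2 * (x₁⁻¹ + x₂⁻¹) + b₂ * x₁⁻¹ * x₂⁻¹ +
      b₄ * x₁⁻¹ * x₂⁻¹ * (x₁⁻¹ + x₂⁻¹) + b₆ * x₁⁻¹ ^ 2 * x₂⁻¹ ^ 2 := by
    field_simp
    linear_combination hsum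
  have hB : x₃ * x₄ * (x₂⁻¹ - x₁⁻¹) ^ 2 = 1 - b₄ * x₁⁻¹ * x₂⁻¹ -
      b₆ * x₁⁻¹ * x₂⁻¹ * (x₁⁻¹ + x₂⁻¹) - b₈ * x₁⁻¹ ^ 2 * x₂⁻¹ ^ 2 := by
    field_simp
    linear_combination hprod
  generalize x₁⁻¹ = u at h₁ hA hB ⊢
  generalize x₂⁻¹ = w at h₂ hA hB ⊢
  have hu1 : v u ≤ 1 := h₁.trans hs.le
  have hw1 : v w ≤ 1 := h₂.trans hs.le
  have huw : v (u * w) ≤ s * s := formal_vmul v h₁ h₂
  have hss : s * s ≤ s := formal_ss_le hs
  have hss1 : s * s < 1 := hss.trans_lt hs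
  -- the denominator is a unit
  have hQ1 : v (b₄ + b₆ * (u + w) + b₈ * (u * w)) ≤ 1 :=
    v.map_add_le (v.map_add_le hb₄ (formal_vmul1 v hb₆ (v.map_add_le hu1 hw1)))
      (formal_vmul1 v hb₈ (formal_vmul1 v hu1 hw1))
  have hn₂ : v (1 - b₄ * u * w - b₆ * u * w * (u + w) - b₈ * u ^ 2 * w ^ 2) = 1 := by
    have e : 1 - b₄ * u * w - b₆ * u * w * (u + w) - b₈ * u ^ 2 * w ^ 2 =
        1 - (u * w) * (b₄ + b₆ * (u + w) + b₈ * (u * w)) := by ring
    rw [e]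
    apply Valuation.map_one_sub_of_lt
    calc v ((u * w) * (b₄ + b₆ * (u + w) + b₈ * (u * w))) ≤ s * s * 1 := formal_vmul v huw hQ1
      _ = s * s := mul_one _
      _ < 1 := hss1
  set n₂ := 1 - b₄ * u * w - b₆ * u * w * (u + w) - b₈ * u ^ 2 * w ^ 2 with hn₂def
  have hn₂0 : n₂ ≠ 0 := by
    intro h
    rw [h, map_zero] at hn₂
    exact zero_ne_one hn₂
  have hx₃ : x₃ ≠ 0 := by
    rintro rfl
    apply hn₂0
    rw [← hB]
    ring
  have hx₄ : x₄ ≠ 0 := by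
    rintro rfl
    apply hn₂0
    rw [← hB]
    ring
  have hS : (x₃⁻¹ + x₄⁻¹) * n₂ = 2 * (u + w) + b₂ * u * w +
      b₄ * u * w * (u + w) + b₆ * u ^ 2 * w ^ 2 := by
    rw [← hA, ← hB]
    field_simp
    ring
  have hP : (x₃⁻¹ * x₄⁻¹) * n₂ = (w - u) ^ 2 := by
    rw [← hB]
    field_simp
  have hvS : v (x₃⁻¹ + x₄⁻¹) ≤ s := by
    have h3 : v ((x₃⁻¹ + x₄⁻¹) * n₂) ≤ s := by
      rw [hS]
      have e : 2 * (u + w) + b₂ * u * w + b₄ * u * w * (u + w) + b₆ * u ^ 2 * w ^ 2 =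
          2 * (u + w) + (u * w) * (b₂ + b₄ * (u + w) + b₆ * (u * w)) := by ring
      rw [e]
      refine v.map_add_le ?_ ?_
      · calc v (2 * (u + w)) ≤ 1 * s := formal_vmul v (formal_v2 v) (v.map_add_le h₁ h₂)
          _ = s := one_mul s
      · calc v ((u * w) * (b₂ + b₄ * (u + w) + b₆ * (u * w))) ≤ s * s * 1 :=
              formal_vmul v huw (v.map_add_le (v.map_add_le hb₂
                (formal_vmul1 v hb₄ (v.map_add_le hu1 hw1)))
                (formal_vmul1 v hb₆ (formal_vmul1 v hu1 hw1)))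
          _ = s * s := mul_one _
          _ ≤ s := hss
    rwa [map_mul, hn₂, mul_one] at h3
  have hvP : v (x₃⁻¹ * x₄⁻¹) ≤ s * s := by
    have h3 : v ((x₃⁻¹ * x₄⁻¹) * n₂) ≤ s * s := by
      rw [hP, pow_two]
      exact formal_vmul v (v.map_sub_le h₂ h₁) (v.map_sub_le h₂ h₁)
    rwa [map_mul, hn₂, mul_one] at h3
  obtain ⟨hv₃, hv₄⟩ := formal_np v hvS hvP
  refine ⟨hx₃, hx₄, hv₃, hv₄, ?_⟩
  have hE : (x₃⁻¹ + x₄⁻¹ - 2 * u - 2 * w) * n₂ =
      (u * w) * (b₂ + b₄ * (u + w) + b₆ * (u * w) +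
        2 * (u + w) * (b₄ + b₆ * (u + w) + b₈ * (u * w))) := by
    have : (x₃⁻¹ + x₄⁻¹ - 2 * u - 2 * w) * n₂ = (x₃⁻¹ + x₄⁻¹) * n₂ - 2 * (u + w) * n₂ := by ring
    rw [this, hS, hn₂def]
    ring
  have h3 : v ((x₃⁻¹ + x₄⁻¹ - 2 * u - 2 * w) * n₂) ≤ s * s := by
    rw [hE]
    calc v ((u * w) * (b₂ + b₄ * (u + w) + b₆ * (u * w) +
          2 * (u + w) * (b₄ + b₆ * (u + w) + b₈ * (u * w)))) ≤ s * s * 1 :=
          formal_vmul v huw (v.map_add_le (v.map_add_le (v.map_add_le hb₂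
            (formal_vmul1 v hb₄ (v.map_add_le hu1 hw1)))
            (formal_vmul1 v hb₆ (formal_vmul1 v hu1 hw1)))
            (formal_vmul1 v (formal_vmul1 v (formal_v2 v) (v.map_add_le hu1 hw1)) hQ1))
      _ = s * s := mul_one _
  rwa [map_mul, hn₂, mul_one] at h3

/-- the doubling case -/
theorem formal_val_double {b₂ b₄ b₆ b₈ : K} (hb₂ : v b₂ ≤ 1) (hb₄ : v b₄ ≤ 1) (hb₆ : v b₆ ≤ 1)
    (hb₈ : v b₈ ≤ 1) {s : Γ₀} (hs : s < 1) {x₁ x' : K} (hx₁ : x₁ ≠ 0)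
    (h₁ : v x₁⁻¹ ≤ s)
    (hd : x' * (4 * x₁ ^ 3 + b₂ * x₁ ^ 2 + 2 * b₄ * x₁ + b₆) =
      x₁ ^ 4 - b₄ * x₁ ^ 2 - 2 * b₆ * x₁ - b₈) :
    x' ≠ 0 ∧ v x'⁻¹ ≤ s ∧ v (x'⁻¹ - 4 * x₁⁻¹) ≤ s * s := by
  have hA : x' * (x₁⁻¹ * (4 + b₂ * x₁⁻¹ + 2 * b₄ * x₁⁻¹ ^ 2 + b₆ * x₁⁻¹ ^ 3)) =
      1 - b₄ * x₁⁻¹ ^ 2 - 2 * b₆ * x₁⁻¹ ^ 3 - b₈ * x₁⁻¹ ^ 4 := by
    field_simp
    linear_combination hd
  generalize x₁⁻¹ = u at h₁ hA ⊢
  have hu1 : v u ≤ 1 := h₁.trans hs.le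
  have huu : v (u * u) ≤ s * s := formal_vmul v h₁ h₁
  have hss : s * s ≤ s := formal_ss_le hs
  have hss1 : s * s < 1 := hss.trans_lt hs
  have h2 := formal_v2 v
  have h4 := formal_v4 v
  have hQ1 : v (b₄ + 2 * b₆ * u + b₈ * (u * u)) ≤ 1 :=
    v.map_add_le (v.map_add_le hb₄ (formal_vmul1 v (formal_vmul1 v h2 hb₆) hu1))
      (formal_vmul1 v hb₈ (formal_vmul1 v hu1 hu1))
  have hm : v (1 - b₄ * u ^ 2 - 2 * b₆ * u ^ 3 - b₈ * u ^ 4) = 1 := by
    have e : 1 - b₄ * u ^ 2 - 2 * b₆ * u ^ 3 - b₈ * u ^ 4 =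
        1 - (u * u) * (b₄ + 2 * b₆ * u + b₈ * (u * u)) := by ring
    rw [e]
    apply Valuation.map_one_sub_of_lt
    calc v ((u * u) * (b₄ + 2 * b₆ * u + b₈ * (u * u))) ≤ s * s * 1 := formal_vmul v huu hQ1
      _ = s * s := mul_one _
      _ < 1 := hss1
  set m := 1 - b₄ * u ^ 2 - 2 * b₆ * u ^ 3 - b₈ * u ^ 4 with hmdef
  have hm0 : m ≠ 0 := by
    intro h
    rw [h, map_zero] at hm
    exact zero_ne_one hm
  have hx' : x' ≠ 0 := by
    rintro rfl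
    apply hm0
    rw [← hA]
    ring
  have hT : x'⁻¹ * m = u * (4 + b₂ * u + 2 * b₄ * u ^ 2 + b₆ * u ^ 3) := by
    rw [← hA]
    field_simp
  have hg : v (4 + b₂ * u + 2 * b₄ * u ^ 2 + b₆ * u ^ 3) ≤ 1 :=
    v.map_add_le (v.map_add_le (v.map_add_le h4 (formal_vmul1 v hb₂ hu1))
      (formal_vmul1 v (formal_vmul1 v h2 hb₄) (by rw [pow_two]; exact formal_vmul1 v hu1 hu1)))
      (formal_vmul1 v hb₆ (by
        rw [pow_succ, pow_two]
        exact formal_vmul1 v (formal_vmul1 v hu1 hu1) hu1))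
  have hvT : v x'⁻¹ ≤ s := by
    have h3 : v (x'⁻¹ * m) ≤ s := by
      rw [hT]
      calc v (u * (4 + b₂ * u + 2 * b₄ * u ^ 2 + b₆ * u ^ 3)) ≤ s * 1 := formal_vmul v h₁ hg
        _ = s := mul_one s
    rwa [map_mul, hm, mul_one] at h3
  refine ⟨hx', hvT, ?_⟩
  have hE : (x'⁻¹ - 4 * u) * m = (u * u) * (b₂ + 2 * b₄ * u + b₆ * (u * u) +
      4 * u * (b₄ + 2 * b₆ * u + b₈ * (u * u))) := by
    have : (x'⁻¹ - 4 * u) * m = x'⁻¹ * m - 4 * u * m := by ring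
    rw [this, hT, hmdef]
    ring
  have h3 : v ((x'⁻¹ - 4 * u) * m) ≤ s * s := by
    rw [hE]
    calc v ((u * u) * (b₂ + 2 * b₄ * u + b₆ * (u * u) +
          4 * u * (b₄ + 2 * b₆ * u + b₈ * (u * u)))) ≤ s * s * 1 :=
          formal_vmul v huu (v.map_add_le (v.map_add_le (v.map_add_le hb₂
            (formal_vmul1 v (formal_vmul1 v h2 hb₄) hu1))
            (formal_vmul1 v hb₆ (formal_vmul1 v hu1 hu1)))
            (formal_vmul1 v (formal_vmul1 v h4 hu1) hQ1))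
      _ = s * s := mul_one _
  rwa [map_mul, hm, mul_one] at h3

/-- the doubling case, when `2 P = 0` -/
theorem formal_val_double_zero {b₂ b₄ b₆ : K} (hb₂ : v b₂ ≤ 1) (hb₄ : v b₄ ≤ 1)
    (hb₆ : v b₆ ≤ 1) {s : Γ₀} (hs : s < 1) {x₁ : K} (hx₁ : x₁ ≠ 0)
    (h₁ : v x₁⁻¹ ≤ s)
    (hd : 4 * x₁ ^ 3 + b₂ * x₁ ^ 2 + 2 * b₄ * x₁ + b₆ = 0) :
    v (4 * x₁⁻¹) ≤ s * s := by
  have hA : 4 * x₁⁻¹ = - (x₁⁻¹ * x₁⁻¹) * (b₂ + 2 * b₄ * x₁⁻¹ + b₆ * (x₁⁻¹ * x₁⁻¹)) := by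
    field_simp
    linear_combination hd
  generalize x₁⁻¹ = u at h₁ hA ⊢
  have hu1 : v u ≤ 1 := h₁.trans hs.le
  have huu : v (-(u * u)) ≤ s * s := by
    rw [Valuation.map_neg]
    exact formal_vmul v h₁ h₁
  have h2 := formal_v2 v
  rw [hA]
  calc v (-(u * u) * (b₂ + 2 * b₄ * u + b₆ * (u * u))) ≤ s * s * 1 :=
        formal_vmul v huu (v.map_add_le (v.map_add_le hb₂
          (formal_vmul1 v (formal_vmul1 v h2 hb₄) hu1))
          (formal_vmul1 v hb₆ (formal_vmul1 v hu1 hu1)))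
    _ = s * s := mul_one _

end val

section curve

variable {K : Type*} [Field K] [DecidableEq K] {Γ₀ : Type*} [LinearOrderedCommGroupWithZero Γ₀]
  (v : Valuation K Γ₀) (W : WeierstrassCurve K)

/-- `1 / x` for an affine point, `0` for the point at infinity -/
noncomputable def formalT (P : W.toAffine.Point) : K := P.xRep 1 / P.xRep 0

omit [DecidableEq K] in
@[simp] theorem formalT_zero : formalT W (0 : W.toAffine.Point) = 0 := by
  simp [formalT]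

omit [DecidableEq K] in
@[simp] theorem formalT_some {x y : K} (h : W.toAffine.Nonsingular x y) :
    formalT W (Affine.Point.some x y h) = x⁻¹ := by
  simp [formalT]

omit [DecidableEq K] in
@[simp] theorem formalT_neg (P : W.toAffine.Point) : formalT W (-P) = formalT W P := by
  simp [formalT]

/-- the ball of radius `s` in the kernel of reduction -/
def FormalBall (s : Γ₀) (P : W.toAffine.Point) : Prop :=
  v (formalT W P) ≤ s ∧ (P ≠ 0 → formalT W P ≠ 0)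

omit [DecidableEq K] in
theorem formalBall_zero (s : Γ₀) : FormalBall v W s (0 : W.toAffine.Point) :=
  ⟨by simp, fun h => absurd rfl h⟩

omit [DecidableEq K] in
theorem formalBall_some {s : Γ₀} {x y : K} (h : W.toAffine.Nonsingular x y) :
    FormalBall v W s (Affine.Point.some x y h) ↔ x ≠ 0 ∧ v x⁻¹ ≤ s := by
  unfold FormalBall
  rw [formalT_some]
  constructor
  · rintro ⟨h1, h2⟩
    exact ⟨fun hx => h2 (Affine.Point.some_ne_zero h) (by rw [hx, inv_zero]), h1⟩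
  · rintro ⟨h1, h2⟩
    exact ⟨h2, fun _ => inv_ne_zero h1⟩

theorem formalBall_neg {s : Γ₀} {P : W.toAffine.Point} :
    FormalBall v W s (-P) ↔ FormalBall v W s P := by
  unfold FormalBall
  rw [formalT_neg, Ne, neg_eq_zero]

omit [DecidableEq K] in
theorem formal_b_integral (hW : IsIntegralW v W) :
    v W.b₂ ≤ 1 ∧ v W.b₄ ≤ 1 ∧ v W.b₆ ≤ 1 ∧ v W.b₈ ≤ 1 := by
  obtain ⟨h₁, h₂, h₃, h₄, h₆⟩ := hW
  have h2 := formal_v2 v
  have h4 := formal_v4 v
  refine ⟨?_, ?_, ?_, ?_⟩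
  · rw [b₂, pow_two]
    exact v.map_add_le (formal_vmul1 v h₁ h₁) (formal_vmul1 v h4 h₂)
  · rw [b₄]
    exact v.map_add_le (formal_vmul1 v h2 h₄) (formal_vmul1 v h₁ h₃)
  · rw [b₆, pow_two]
    exact v.map_add_le (formal_vmul1 v h₃ h₃) (formal_vmul1 v h4 h₆)
  · rw [b₈, pow_two, pow_two, pow_two]
    exact v.map_sub_le (v.map_add_le (v.map_sub_le (v.map_add_le
      (formal_vmul1 v (formal_vmul1 v h₁ h₁) h₆) (formal_vmul1 v (formal_vmul1 v h4 h₂) h₆))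
      (formal_vmul1 v (formal_vmul1 v h₁ h₃) h₄)) (formal_vmul1 v h₂ (formal_vmul1 v h₃ h₃)))
      (formal_vmul1 v h₄ h₄)

/-- doubling in the ball -/
theorem formal_double (hW : IsIntegralW v W) {s : Γ₀} (hs : s < 1) {R : W.toAffine.Point}
    (hR : FormalBall v W s R) :
    FormalBall v W s (R + R) ∧ v (formalT W (R + R) - 4 * formalT W R) ≤ s * s := by
  obtain ⟨hb₂, hb₄, hb₆, hb₈⟩ := formal_b_integral v W hW
  rcases R with _ | ⟨x₁, y₁, h₁⟩
  · change FormalBall v W s ((0 : W.toAffine.Point) + 0) ∧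
      v (formalT W ((0 : W.toAffine.Point) + 0) - 4 * formalT W (0 : W.toAffine.Point)) ≤ s * s
    rw [add_zero, formalT_zero]
    exact ⟨formalBall_zero v W s, by simp⟩
  · obtain ⟨hx₁, hv₁⟩ := (formalBall_some v W h₁).mp hR
    rcases hRR : Affine.Point.some x₁ y₁ h₁ + Affine.Point.some x₁ y₁ h₁ with _ | ⟨x', y', h'⟩
    · have hf := (Fermat.Agent.S51.add_self_eq_zero_iff W h₁).mp hRR
      unfold Fermat.Agent.S51.f2 at hf
      have h3 := formal_val_double_zero v hb₂ hb₄ hb₆ hs hx₁ hv₁ hf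
      refine ⟨formalBall_zero v W s, ?_⟩
      change v (formalT W (0 : W.toAffine.Point) - 4 * formalT W (Affine.Point.some x₁ y₁ h₁))
        ≤ s * s
      rw [formalT_zero, formalT_some, zero_sub, Valuation.map_neg]
      exact h3
    · obtain ⟨hd, -⟩ := Fermat.Agent.S51.add_self_x W h₁ h' hRR
      unfold Fermat.Agent.S51.f2 Fermat.Agent.S51.phi2 at hd
      obtain ⟨hx', hv', hE⟩ := formal_val_double v hb₂ hb₄ hb₆ hb₈ hs hx₁ hv₁ hd
      refine ⟨(formalBall_some v W h').mpr ⟨hx', hv'⟩, ?_⟩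
      rw [formalT_some, formalT_some]
      exact hE

/-- **the parallelogram law** modulo `s²` on the ball of radius `s < 1` -/
theorem formal_parallelogram (hW : IsIntegralW v W) {s : Γ₀} (hs : s < 1)
    {R S : W.toAffine.Point} (hR : FormalBall v W s R) (hS : FormalBall v W s S) :
    FormalBall v W s (R + S) ∧ FormalBall v W s (R - S) ∧
      v (formalT W (R + S) + formalT W (R - S) - 2 * formalT W R - 2 * formalT W S) ≤ s * s := by
  obtain ⟨hb₂, hb₄, hb₆, hb₈⟩ := formal_b_integral v W hW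
  by_cases hS0 : S = 0
  · subst hS0
    rw [add_zero, sub_zero, formalT_zero]
    refine ⟨hR, hR, ?_⟩
    have : formalT W R + formalT W R - 2 * formalT W R - 2 * 0 = 0 := by ring
    rw [this, map_zero]
    exact zero_le
  by_cases hR0 : R = 0
  · subst hR0
    rw [zero_add, zero_sub, formalT_zero, formalT_neg]
    refine ⟨hS, (formalBall_neg v W).mpr hS, ?_⟩
    have : formalT W S + formalT W S - 2 * 0 - 2 * formalT W S = 0 := by ring
    rw [this, map_zero]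
    exact zero_le
  rcases R with _ | ⟨x₁, y₁, h₁⟩
  · exact absurd rfl hR0
  rcases S with _ | ⟨x₂, y₂, h₂⟩
  · exact absurd rfl hS0
  obtain ⟨hx₁, hv₁⟩ := (formalBall_some v W h₁).mp hR
  obtain ⟨hx₂, hv₂⟩ := (formalBall_some v W h₂).mp hS
  by_cases hx : x₁ = x₂
  · rcases (Affine.Point.X_eq_iff (h₁ := h₁) (h₂ := h₂)).mp hx with h | h
    · -- `R = S`
      rw [← h, sub_self, formalT_zero]
      obtain ⟨hB, hE⟩ := formal_double v W hW hs hR
      refine ⟨hB, formalBall_zero v W s, ?_⟩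
      have : formalT W (Affine.Point.some x₁ y₁ h₁ + Affine.Point.some x₁ y₁ h₁) + 0 -
          2 * formalT W (Affine.Point.some x₁ y₁ h₁) -
          2 * formalT W (Affine.Point.some x₁ y₁ h₁) =
          formalT W (Affine.Point.some x₁ y₁ h₁ + Affine.Point.some x₁ y₁ h₁) -
          4 * formalT W (Affine.Point.some x₁ y₁ h₁) := by ring
      rw [this]
      exact hE
    · -- `R = -S`
      have hS' : Affine.Point.some x₂ y₂ h₂ = -Affine.Point.some x₁ y₁ h₁ := by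
        rw [h, neg_neg]
      rw [hS', add_neg_cancel, sub_neg_eq_add, formalT_zero, formalT_neg]
      obtain ⟨hB, hE⟩ := formal_double v W hW hs hR
      refine ⟨formalBall_zero v W s, hB, ?_⟩
      have : 0 + formalT W (Affine.Point.some x₁ y₁ h₁ + Affine.Point.some x₁ y₁ h₁) -
          2 * formalT W (Affine.Point.some x₁ y₁ h₁) -
          2 * formalT W (Affine.Point.some x₁ y₁ h₁) =
          formalT W (Affine.Point.some x₁ y₁ h₁ + Affine.Point.some x₁ y₁ h₁) -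
          4 * formalT W (Affine.Point.some x₁ y₁ h₁) := by ring
      rw [this]
      exact hE
  · obtain ⟨x₃, y₃, x₄, y₄, h₃, h₄, hadd, hsub, hsum, hprod⟩ := xonly W h₁ h₂ hx
    rw [hadd, hsub]
    obtain ⟨hx₃, hx₄, hv₃, hv₄, hE⟩ :=
      formal_val_add v hb₂ hb₄ hb₆ hb₈ hs hx₁ hx₂ hv₁ hv₂ hsum hprod
    refine ⟨(formalBall_some v W h₃).mpr ⟨hx₃, hv₃⟩, (formalBall_some v W h₄).mpr ⟨hx₄, hv₄⟩, ?_⟩
    rw [formalT_some, formalT_some, formalT_some, formalT_some]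
    exact hE

omit [DecidableEq K] in
/-- a point of a ball of radius `< 1` is in the kernel of reduction -/
theorem inKer_of_formalBall {s : Γ₀} (hs : s < 1) {P : W.toAffine.Point}
    (hP : FormalBall v W s P) : InKer v W P := by
  rcases P with _ | ⟨x, y, h⟩
  · exact inKer_zero v W
  · obtain ⟨hx, hv⟩ := (formalBall_some v W h).mp hP
    rw [inKer_some]
    have h0 : 0 < v x := zero_lt_iff.mpr ((Valuation.ne_zero_iff v).mpr hx)
    have h1 : (v x)⁻¹ < 1 := by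
      rw [← map_inv₀]
      exact hv.trans_lt hs
    exact (inv_lt_one₀ h0).mp h1

omit [DecidableEq K] in
/-- an affine point of the kernel of reduction is in the ball of radius `v (1/x) < 1` -/
theorem formalBall_of_inKer {x y : K} (h : W.toAffine.Nonsingular x y) (hx : 1 < v x) :
    x ≠ 0 ∧ v x⁻¹ < 1 ∧ v x⁻¹ ≠ 0 ∧ FormalBall v W (v x⁻¹) (Affine.Point.some x y h) := by
  have hx0 : x ≠ 0 := by
    rintro rfl
    rw [map_zero] at hx
    exact absurd hx (not_lt.mpr zero_le)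
  have h0 : 0 < v x := zero_lt_iff.mpr ((Valuation.ne_zero_iff v).mpr hx0)
  refine ⟨hx0, ?_, ?_, (formalBall_some v W h).mpr ⟨hx0, le_rfl⟩⟩
  · rw [map_inv₀]
    exact (inv_lt_one₀ h0).mpr hx
  · exact (Valuation.ne_zero_iff v).mpr (inv_ne_zero hx0)

/-- **P3 (i)**: the kernel of reduction is closed under subtraction -/
theorem inKer_sub (hW : IsIntegralW v W) {P Q : W.toAffine.Point}
    (hP : InKer v W P) (hQ : InKer v W Q) : InKer v W (P - Q) := by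
  rcases P with _ | ⟨x₁, y₁, h₁⟩
  · change InKer v W ((0 : W.toAffine.Point) - Q)
    rw [zero_sub]
    rcases Q with _ | ⟨x₂, y₂, h₂⟩
    · exact inKer_zero v W
    · rw [Affine.Point.neg_some, inKer_some]
      exact (inKer_some v W h₂).mp hQ
  rcases Q with _ | ⟨x₂, y₂, h₂⟩
  · change InKer v W (Affine.Point.some x₁ y₁ h₁ - (0 : W.toAffine.Point))
    rw [sub_zero]
    exact hP
  obtain ⟨-, hs₁, -, hB₁⟩ := formalBall_of_inKer v W h₁ ((inKer_some v W h₁).mp hP)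
  obtain ⟨-, hs₂, -, hB₂⟩ := formalBall_of_inKer v W h₂ ((inKer_some v W h₂).mp hQ)
  have hB₁' : FormalBall v W (max (v x₁⁻¹) (v x₂⁻¹)) (Affine.Point.some x₁ y₁ h₁) :=
    ⟨hB₁.1.trans (le_max_left _ _), hB₁.2⟩
  have hB₂' : FormalBall v W (max (v x₁⁻¹) (v x₂⁻¹)) (Affine.Point.some x₂ y₂ h₂) :=
    ⟨hB₂.1.trans (le_max_right _ _), hB₂.2⟩
  have hs : max (v x₁⁻¹) (v x₂⁻¹) < 1 := max_lt hs₁ hs₂
  exact inKer_of_formalBall v W hs (formal_parallelogram v W hW hs hB₁' hB₂').2.1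

/-- `t (k P) ≡ k² t(P)` modulo `s²` -/
theorem formal_nsmul (hW : IsIntegralW v W) {s : Γ₀} (hs : s < 1) {P : W.toAffine.Point}
    (hP : FormalBall v W s P) (k : ℕ) :
    (FormalBall v W s (k • P) ∧ v (formalT W (k • P) - (k : K) ^ 2 * formalT W P) ≤ s * s) ∧
    (FormalBall v W s ((k + 1) • P) ∧
      v (formalT W ((k + 1) • P) - ((k + 1 : ℕ) : K) ^ 2 * formalT W P) ≤ s * s) := by
  induction k with
  | zero =>
    refine ⟨⟨?_, ?_⟩, ⟨?_, ?_⟩⟩
    · rw [zero_smul]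
      exact formalBall_zero v W s
    · rw [zero_smul, formalT_zero]
      simp
    · rw [zero_add, one_smul]
      exact hP
    · rw [zero_add, one_smul]
      simp
  | succ k ih =>
    obtain ⟨⟨hB₀, hE₀⟩, ⟨hB₁, hE₁⟩⟩ := ih
    refine ⟨⟨hB₁, hE₁⟩, ?_⟩
    obtain ⟨hB₂, -, hE⟩ := formal_parallelogram v W hW hs hB₁ hP
    have e1 : (k + 1) • P + P = (k + 1 + 1) • P := (succ_nsmul P (k + 1)).symm
    have e2 : (k + 1) • P - P = k • P := by
      rw [succ_nsmul, add_sub_cancel_right]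
    rw [e1, e2] at hE
    rw [e1] at hB₂
    refine ⟨hB₂, ?_⟩
    have key : formalT W ((k + 1 + 1) • P) - ((k + 1 + 1 : ℕ) : K) ^ 2 * formalT W P =
        (formalT W ((k + 1 + 1) • P) + formalT W (k • P) - 2 * formalT W ((k + 1) • P) -
          2 * formalT W P) - (formalT W (k • P) - (k : K) ^ 2 * formalT W P) +
        2 * (formalT W ((k + 1) • P) - ((k + 1 : ℕ) : K) ^ 2 * formalT W P) := by
      push_cast
      ring
    rw [key]
    refine v.map_add_le (v.map_sub_le hE hE₀) ?_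
    calc v (2 * (formalT W ((k + 1) • P) - ((k + 1 : ℕ) : K) ^ 2 * formalT W P))
        ≤ 1 * (s * s) := formal_vmul v (formal_v2 v) hE₁
      _ = s * s := one_mul _

/-- **P3 (ii)**: the kernel of reduction has no `p`-torsion if `v p = 1` -/
theorem inKer_torsion (hW : IsIntegralW v W) {p : ℕ} (hp : v (p : K) = 1)
    {P : W.toAffine.Point} (hP : InKer v W P) (hpP : p • P = 0) : P = 0 := by
  rcases P with _ | ⟨x, y, h⟩
  · rfl
  exfalso
  obtain ⟨hx0, hs, hs0, hB⟩ := formalBall_of_inKer v W h ((inKer_some v W h).mp hP)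
  have h1 := (formal_nsmul v W hW hs hB p).1.2
  rw [hpP, formalT_zero, formalT_some, zero_sub, Valuation.map_neg, map_mul, map_pow, hp,
    one_pow, one_mul] at h1
  exact absurd h1 (not_le.mpr (formal_ss_lt hs hs0))

end curve

end Fermat.Agent.S05
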