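import Mathlib
import Fermat.Prelude.Def_FLTPrelim_Ramification

/-!
# S05, piece P8: elementary facts on decomposition and inertia groups

`A` a valuation subring of a field `L` (algebraic over `K`), `v = A.valuation`.

* `valuation_map_of_mem_decomp`: `v (σ x) = v x` for `σ` in the decomposition group;
* `valuation_sub_lt_one_of_mem_inertia`: `v (σ x - x) < 1` for `x ∈ A`, `σ` in the inertia group;
* `valuation_intCast_eq_one`: `v n = 1` for an integer `n` prime to `q` (`A` over `q`);
* `inertia_fixes_sqrt`: `σ s = s` if `s ^ 2 = u ∈ K`, `v u = 1`, `v 2 = 1`, `σ` in inertia.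
-/

set_option autoImplicit false

open scoped Pointwise

namespace Fermat.Agent.S05

variable {K L : Type*} [Field K] [Field L] [Algebra K L]

/-- an element of the decomposition group preserves `A` -/
theorem map_mem_of_mem_decomp (A : ValuationSubring L) {σ : L ≃ₐ[K] L}
    (hσ : σ ∈ A.decompositionSubgroup K) {x : L} (hx : x ∈ A) : σ x ∈ A := by
  have h1 : σ • A = A := hσ
  have h2 : σ • x ∈ σ • A := ValuationSubring.smul_mem_pointwise_smul σ x A hx
  rw [h1] at h2
  exact h2

theorem map_mem_iff_of_mem_decomp (A : ValuationSubring L) {σ : L ≃ₐ[K] L}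
    (hσ : σ ∈ A.decompositionSubgroup K) {x : L} : σ x ∈ A ↔ x ∈ A := by
  refine ⟨fun h => ?_, map_mem_of_mem_decomp A hσ⟩
  have hinv : σ⁻¹ ∈ A.decompositionSubgroup K := inv_mem hσ
  have := map_mem_of_mem_decomp A hinv h
  rwa [show σ⁻¹ (σ x) = x from σ.symm_apply_apply x] at this

/-- an element of the decomposition group is monotone for the valuation -/
theorem valuation_map_le_of_mem_decomp (A : ValuationSubring L) {σ : L ≃ₐ[K] L}
    (hσ : σ ∈ A.decompositionSubgroup K) {x y : L} (h : A.valuation x ≤ A.valuation y) :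
    A.valuation (σ x) ≤ A.valuation (σ y) := by
  rw [ValuationSubring.valuation_le_iff] at h ⊢
  obtain ⟨a, ha⟩ := h
  exact ⟨⟨σ a, map_mem_of_mem_decomp A hσ a.2⟩, by simp [← ha]⟩

theorem valuation_map_le_iff_of_mem_decomp (A : ValuationSubring L) {σ : L ≃ₐ[K] L}
    (hσ : σ ∈ A.decompositionSubgroup K) {x y : L} :
    A.valuation (σ x) ≤ A.valuation (σ y) ↔ A.valuation x ≤ A.valuation y := by
  refine ⟨fun h => ?_, valuation_map_le_of_mem_decomp A hσ⟩
  have hinv : σ⁻¹ ∈ A.decompositionSubgroup K := inv_mem hσ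
  have := valuation_map_le_of_mem_decomp A hinv h
  rwa [show σ⁻¹ (σ x) = x from σ.symm_apply_apply x,
    show σ⁻¹ (σ y) = y from σ.symm_apply_apply y] at this

theorem valuation_map_lt_iff_of_mem_decomp (A : ValuationSubring L) {σ : L ≃ₐ[K] L}
    (hσ : σ ∈ A.decompositionSubgroup K) {x y : L} :
    A.valuation (σ x) < A.valuation (σ y) ↔ A.valuation x < A.valuation y := by
  rw [← not_le, ← not_le, valuation_map_le_iff_of_mem_decomp A hσ]

/-- an automorphism has finite orbits on algebraic elements -/
theorem exists_pow_apply_eq (σ : L ≃ₐ[K] L) {x : L} (hx : IsAlgebraic K x) :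
    ∃ n : ℕ, 0 < n ∧ (σ ^ n) x = x := by
  have hfin : ((minpoly K x).rootSet L).Finite := Polynomial.rootSet_finite _ _
  have hmem : ∀ n : ℕ, (σ ^ n) x ∈ (minpoly K x).rootSet L := by
    intro n
    rw [Polynomial.mem_rootSet]
    refine ⟨minpoly.ne_zero hx.isIntegral, ?_⟩
    have := Polynomial.aeval_algHom_apply ((σ ^ n : L ≃ₐ[K] L) : L →ₐ[K] L) x (minpoly K x)
    rw [minpoly.aeval, map_zero] at this
    exact this
  obtain ⟨i, j, hij, heq⟩ : ∃ i j : ℕ, i < j ∧ (σ ^ i) x = (σ ^ j) x := by
    by_contra hcon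
    push Not at hcon
    have hinj : Function.Injective (fun n : ℕ => (σ ^ n) x) := by
      intro i j h
      rcases lt_trichotomy i j with hlt | heq | hgt
      · exact absurd h (hcon i j hlt)
      · exact heq
      · exact absurd h.symm (hcon j i hgt)
    exact Set.infinite_of_injective_forall_mem hinj hmem hfin
  refine ⟨j - i, by omega, ?_⟩
  have hj : σ ^ j = σ ^ i * σ ^ (j - i) := by rw [← pow_add]; congr 1; omega
  rw [hj] at heq
  exact ((σ ^ i).injective heq).symm

/-- **P8 (i)**: an element of the decomposition group preserves the valuation of algebraic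
elements. -/
theorem valuation_map_of_mem_decomp (A : ValuationSubring L) {σ : L ≃ₐ[K] L}
    (hσ : σ ∈ A.decompositionSubgroup K) {x : L} (hx : IsAlgebraic K x) :
    A.valuation (σ x) = A.valuation x := by
  -- a strict inequality propagates along the orbit
  have key : ∀ (τ : L ≃ₐ[K] L), τ ∈ A.decompositionSubgroup K →
      A.valuation (τ x) < A.valuation x → ∀ k : ℕ, 0 < k →
      A.valuation ((τ ^ k) x) < A.valuation x := by
    intro τ hτ h k hk
    induction k with
    | zero => omega
    | succ k ih =>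
      rcases Nat.eq_zero_or_pos k with rfl | hkpos
      · simpa using h
      · have h1 := ih hkpos
        have h2 := (valuation_map_lt_iff_of_mem_decomp A hτ).mpr h1
        calc A.valuation ((τ ^ (k + 1)) x) = A.valuation (τ ((τ ^ k) x)) := by
              rw [pow_succ']; rfl
          _ < A.valuation (τ x) := h2
          _ < A.valuation x := h
  rcases lt_trichotomy (A.valuation (σ x)) (A.valuation x) with h | h | h
  · obtain ⟨n, hn, hfix⟩ := exists_pow_apply_eq σ hx
    have := key σ hσ h n hn
    rw [hfix] at this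
    exact absurd this (lt_irrefl _)
  · exact h
  · -- use `σ⁻¹`
    have hinv : σ⁻¹ ∈ A.decompositionSubgroup K := inv_mem hσ
    have h' : A.valuation (σ⁻¹ x) < A.valuation x := by
      have := (valuation_map_lt_iff_of_mem_decomp A hσ (x := σ⁻¹ x) (y := x)).mp
      apply this
      rw [show σ (σ⁻¹ x) = x from σ.apply_symm_apply x]
      exact h
    obtain ⟨n, hn, hfix⟩ := exists_pow_apply_eq σ⁻¹ hx
    have := key σ⁻¹ hinv h' n hn
    rw [hfix] at this
    exact absurd this (lt_irrefl _)

theorem mem_decomp_of_mem_inertiaIn (A : ValuationSubring L) {σ : L ≃ₐ[K] L}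
    (hσ : σ ∈ A.inertiaSubgroupIn K) : σ ∈ A.decompositionSubgroup K := by
  obtain ⟨τ, -, rfl⟩ := hσ
  exact τ.2

/-- **P8 (ii)**: an element of the inertia group is trivial modulo the maximal ideal. -/
theorem valuation_sub_lt_one_of_mem_inertia (A : ValuationSubring L) {σ : L ≃ₐ[K] L}
    (hσ : σ ∈ A.inertiaSubgroupIn K) {x : L} (hx : x ∈ A) :
    A.valuation (σ x - x) < 1 := by
  obtain ⟨τ, hτ, rfl⟩ := hσ
  have h1 : MulSemiringAction.toRingAut (A.decompositionSubgroup K)
      (IsLocalRing.ResidueField A) τ = 1 := hτ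
  have h2 : τ • (IsLocalRing.residue A ⟨x, hx⟩) = IsLocalRing.residue A ⟨x, hx⟩ := by
    have := congrArg (fun f : RingAut (IsLocalRing.ResidueField A) =>
      f (IsLocalRing.residue A ⟨x, hx⟩)) h1
    exact this
  rw [← IsLocalRing.ResidueField.residue_smul] at h2
  have h3 : (τ • (⟨x, hx⟩ : A)) - ⟨x, hx⟩ ∈ IsLocalRing.maximalIdeal A := by
    rw [← Ideal.Quotient.eq]
    exact h2
  rw [ValuationSubring.valuation_lt_one_iff] at h3
  exact h3

theorem valuation_intCast_le_one (A : ValuationSubring L) (n : ℤ) :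
    A.valuation (n : L) ≤ 1 :=
  (A.valuation_le_one_iff _).mpr (intCast_mem A n)

theorem valuation_natCast_lt_one (A : ValuationSubring L) {q : ℕ} (hq : A.LiesOverPrime q) :
    A.valuation (q : L) < 1 :=
  A.mem_nonunits_iff.mp hq

/-- **P8 (iii)**: integers prime to `q` are units at a place over `q`. -/
theorem valuation_intCast_eq_one (A : ValuationSubring L) {q : ℕ} (hq : A.LiesOverPrime q)
    {n : ℤ} (hn : IsCoprime n (q : ℤ)) : A.valuation (n : L) = 1 := by
  refine le_antisymm (valuation_intCast_le_one A n) ?_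
  by_contra hcon
  push Not at hcon
  obtain ⟨a, b, hab⟩ := hn
  have h1 : (a : L) * (n : L) + (b : L) * ((q : ℤ) : L) = 1 := by exact_mod_cast congrArg (Int.cast : ℤ → L) hab
  have hq' : A.valuation (((q : ℤ) : L)) < 1 := by
    simpa using valuation_natCast_lt_one A hq
  have h2 : A.valuation ((a : L) * (n : L)) < 1 := by
    rw [map_mul]
    calc A.valuation (a : L) * A.valuation (n : L) ≤ 1 * A.valuation (n : L) :=
          mul_le_mul_left (valuation_intCast_le_one A a) _
      _ = A.valuation (n : L) := one_mul _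
      _ < 1 := hcon
  have h3 : A.valuation ((b : L) * ((q : ℤ) : L)) < 1 := by
    rw [map_mul]
    calc A.valuation (b : L) * A.valuation (((q : ℤ) : L)) ≤ 1 * A.valuation (((q : ℤ) : L)) :=
          mul_le_mul_left (valuation_intCast_le_one A b) _
      _ = A.valuation (((q : ℤ) : L)) := one_mul _
      _ < 1 := hq'
  have h4 : A.valuation ((a : L) * (n : L) + (b : L) * ((q : ℤ) : L)) < 1 :=
    lt_of_le_of_lt (A.valuation.map_add _ _) (max_lt h2 h3)
  rw [h1, map_one] at h4
  exact lt_irrefl _ h4

theorem valuation_natCast_eq_one (A : ValuationSubring L) {q : ℕ} (hq : A.LiesOverPrime q)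
    {n : ℕ} (hn : Nat.Coprime n q) : A.valuation (n : L) = 1 := by
  have := valuation_intCast_eq_one A hq (n := (n : ℤ)) (Nat.isCoprime_iff_coprime.mpr hn)
  simpa using this

/-- integers divisible by `q` are nonunits at a place over `q` -/
theorem valuation_intCast_lt_one (A : ValuationSubring L) {q : ℕ} (hq : A.LiesOverPrime q)
    {n : ℤ} (hn : (q : ℤ) ∣ n) : A.valuation (n : L) < 1 := by
  obtain ⟨m, rfl⟩ := hn
  push_cast
  rw [map_mul]
  calc A.valuation (q : L) * A.valuation (m : L) ≤ A.valuation (q : L) * 1 :=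
        mul_le_mul_right (valuation_intCast_le_one A m) _
    _ = A.valuation (q : L) := mul_one _
    _ < 1 := valuation_natCast_lt_one A hq

theorem valuation_intCast_eq_one_iff (A : ValuationSubring L) {q : ℕ} (hqp : q.Prime)
    (hq : A.LiesOverPrime q) {n : ℤ} : A.valuation (n : L) = 1 ↔ ¬ (q : ℤ) ∣ n := by
  constructor
  · intro h hdvd
    have := valuation_intCast_lt_one A hq hdvd
    rw [h] at this
    exact lt_irrefl _ this
  · intro h
    apply valuation_intCast_eq_one A hq
    have hp : Prime (q : ℤ) := Nat.prime_iff_prime_int.mp hqp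
    exact (IsCoprime.symm ((Prime.coprime_iff_not_dvd hp).mpr h))

theorem valuation_two_eq_one (A : ValuationSubring L) {q : ℕ} (hqp : q.Prime) (hq2 : q ≠ 2)
    (hq : A.LiesOverPrime q) : A.valuation (2 : L) = 1 := by
  have h : Nat.Coprime 2 q := by
    rw [Nat.coprime_primes Nat.prime_two hqp]
    exact fun h => hq2 h.symm
  simpa using valuation_natCast_eq_one A hq h

theorem valuation_prime_eq_one (A : ValuationSubring L) {q p : ℕ} (hqp : q.Prime)
    (hp : p.Prime) (hne : q ≠ p) (hq : A.LiesOverPrime q) : A.valuation (p : L) = 1 := by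
  have h : Nat.Coprime p q := by
    rw [Nat.coprime_primes hp hqp]
    exact fun h => hne h.symm
  exact valuation_natCast_eq_one A hq h

/-- **P8 (iv)**: inertia fixes square roots of units of the base field (residue characteristic
`≠ 2`). -/
theorem inertia_fixes_sqrt (A : ValuationSubring L) (h2 : A.valuation (2 : L) = 1)
    {σ : L ≃ₐ[K] L} (hσ : σ ∈ A.inertiaSubgroupIn K) {s : L} {u : K}
    (hs : s ^ 2 = algebraMap K L u) (hu : A.valuation (algebraMap K L u) = 1) : σ s = s := by
  have hvs : A.valuation s = 1 := by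
    have h1 : A.valuation s ^ 2 = 1 := by rw [← map_pow, hs, hu]
    exact sq_eq_one.mp h1
  have hsA : s ∈ A := (A.valuation_le_one_iff s).mp hvs.le
  have hσs : (σ s) ^ 2 = s ^ 2 := by
    rw [← map_pow, hs, AlgEquiv.commutes]
  have hcases : σ s = s ∨ σ s = -s := sq_eq_sq_iff_eq_or_eq_neg.mp hσs
  rcases hcases with h | h
  · exact h
  · exfalso
    have h3 := valuation_sub_lt_one_of_mem_inertia A hσ hsA
    rw [h] at h3
    have h4 : -s - s = -(2 * s) := by ring
    rw [h4, Valuation.map_neg, map_mul, h2, hvs, one_mul] at h3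
    exact lt_irrefl _ h3

/-! ### The contract statements (over `AlgebraicClosure ℚ`) -/

section Contract

local notation "Qbar" => AlgebraicClosure ℚ

variable (A : ValuationSubring Qbar) {σ : Qbar ≃ₐ[ℚ] Qbar} (hσ : σ ∈ A.inertiaSubgroupIn ℚ)

include hσ in
theorem inertia_val (x : Qbar) : A.valuation (σ x) = A.valuation x :=
  valuation_map_of_mem_decomp A (mem_decomp_of_mem_inertiaIn A hσ)
    ((AlgebraicClosure.isAlgebraic ℚ).isAlgebraic x)

include hσ in
theorem inertia_sub (x : Qbar) (hx : A.valuation x ≤ 1) : A.valuation (σ x - x) < 1 :=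
  valuation_sub_lt_one_of_mem_inertia A hσ ((A.valuation_le_one_iff x).mp hx)

theorem val_int_le (n : ℤ) : A.valuation ((n : ℚ) : Qbar) ≤ 1 := by
  have := valuation_intCast_le_one A n
  simp

theorem val_int_eq {q : ℕ} (hq : q.Prime) (hA : A.LiesOverPrime q) {n : ℤ}
    (hn : ¬ (q : ℤ) ∣ n) : A.valuation ((n : ℚ) : Qbar) = 1 := by
  have := (valuation_intCast_eq_one_iff A hq hA).mpr hn
  simpa using this

theorem val_int_lt {q : ℕ} (hA : A.LiesOverPrime q) {n : ℤ}
    (hn : (q : ℤ) ∣ n) : A.valuation ((n : ℚ) : Qbar) < 1 := by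
  have := valuation_intCast_lt_one A hA hn
  simpa using this

include hσ in
/-- inertia fixes the square roots of units (residue characteristic odd) -/
theorem inertia_sqrt (h2 : A.valuation (2 : Qbar) = 1) {s : Qbar} (hs : A.valuation s = 1)
    (hss : σ (s ^ 2) = s ^ 2) : σ s = s := by
  have hsA : s ∈ A := (A.valuation_le_one_iff s).mp hs.le
  have hσs : (σ s) ^ 2 = s ^ 2 := by rw [← map_pow, hss]
  rcases sq_eq_sq_iff_eq_or_eq_neg.mp hσs with h | h
  · exact h
  · exfalso
    have h3 := valuation_sub_lt_one_of_mem_inertia A hσ hsA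
    rw [h] at h3
    have h4 : -s - s = -(2 * s) := by ring
    rw [h4, Valuation.map_neg, map_mul, h2, hs, one_mul] at h3
    exact lt_irrefl _ h3

/-- the valuation of a rational number in `Qbar` via numerator and denominator -/
theorem val_two_eq_one {q : ℕ} (hq : q.Prime) (hq2 : q ≠ 2) (hA : A.LiesOverPrime q) :
    A.valuation (2 : Qbar) = 1 :=
  valuation_two_eq_one A hq hq2 hA

theorem val_prime_eq_one {q p : ℕ} (hq : q.Prime) (hp : p.Prime) (hne : q ≠ p)
    (hA : A.LiesOverPrime q) : A.valuation (p : Qbar) = 1 :=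
  valuation_prime_eq_one A hq hp hne hA

/-- inertia (indeed every `ℚ`-automorphism) fixes the rationals -/
theorem inertia_rat (τ : Qbar ≃ₐ[ℚ] Qbar) (r : ℚ) : τ (r : Qbar) = (r : Qbar) := by
  simp

end Contract

end Fermat.Agent.S05
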