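import Mathlib
import Fermat.Agent.S05.Defs

/-!
# S05, piece P4: points with the same nonsingular reduction differ by a point of the kernel of
reduction

`K` a field with a valuation `v` (multiplicative notation, integers = `{v ≤ 1}`), `W` a Weierstrass
curve over `K` with integral coefficients.  If `P = (x, y)` is an integral point whose reduction
is nonsingular (`v (W_X (x, y)) = 1` or `v (W_Y (x, y)) = 1`) and `Q = (x', y')` is a point with
`v (x' - x) < 1`, `v (y' - y) < 1`, then `Q - P` is `0` or has `1 < v (x (Q - P))`.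
-/

set_option autoImplicit false

open WeierstrassCurve

namespace Fermat.Agent.S05

section valuation

variable {K : Type*} [Field K] {Γ₀ : Type*} [LinearOrderedCommGroupWithZero Γ₀]
  (v : Valuation K Γ₀)

theorem Reduction.val_two_le : v (2 : K) ≤ 1 := by
  have : (2 : K) = 1 + 1 := by norm_num
  rw [this]
  exact v.map_add_le (le_of_eq v.map_one) (le_of_eq v.map_one)

theorem Reduction.val_three_le : v (3 : K) ≤ 1 := by
  have : (3 : K) = 2 + 1 := by norm_num
  rw [this]
  exact v.map_add_le (Reduction.val_two_le v) (le_of_eq v.map_one)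

/-- the `x`-coordinate of a sum with a non-integral slope is non-integral -/
theorem Reduction.one_lt_val_addX {a₁ a₂ x₁ x₂ ℓ : K} (ha₁ : v a₁ ≤ 1) (ha₂ : v a₂ ≤ 1)
    (hx₁ : v x₁ ≤ 1) (hx₂ : v x₂ ≤ 1) (hℓ : 1 < v ℓ) :
    1 < v (ℓ ^ 2 + a₁ * ℓ - a₂ - x₁ - x₂) := by
  have hℓ0 : 0 < v ℓ := lt_trans zero_lt_one hℓ
  have h1 : v ℓ < v (ℓ ^ 2) := by
    rw [v.map_pow, pow_two]
    exact lt_mul_of_one_lt_left hℓ0 hℓ
  have h2 : v (a₁ * ℓ - a₂ - x₁ - x₂) ≤ v ℓ := by
    refine v.map_sub_le (v.map_sub_le (v.map_sub_le ?_ (ha₂.trans hℓ.le)) (hx₁.trans hℓ.le))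
      (hx₂.trans hℓ.le)
    rw [v.map_mul]
    exact mul_le_of_le_one_left' ha₁
  have h3 : ℓ ^ 2 + a₁ * ℓ - a₂ - x₁ - x₂ = ℓ ^ 2 + (a₁ * ℓ - a₂ - x₁ - x₂) := by ring
  rw [h3, v.map_add_eq_of_lt_left (lt_of_le_of_lt h2 h1)]
  exact lt_trans hℓ h1

end valuation

section reduction

variable {K : Type*} [Field K] [DecidableEq K] {Γ₀ : Type*} [LinearOrderedCommGroupWithZero Γ₀]
  (v : Valuation K Γ₀) (W : WeierstrassCurve K)

/-- **P4 (R)**: two points with the same nonsingular reduction differ by a point of the kernel of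
reduction. -/
theorem reduction_sub (ha₁ : v W.a₁ ≤ 1) (ha₂ : v W.a₂ ≤ 1) (ha₃ : v W.a₃ ≤ 1)
    {x y x' y' : K} (h : W.toAffine.Nonsingular x y)
    (h' : W.toAffine.Nonsingular x' y') (hx : v x ≤ 1) (hy : v y ≤ 1)
    (hns : v (W.a₁ * y - (3 * x ^ 2 + 2 * W.a₂ * x + W.a₄)) = 1 ∨
      v (2 * y + W.a₁ * x + W.a₃) = 1)
    (hxx : v (x' - x) < 1) (hyy : v (y' - y) < 1) :
    Affine.Point.some x' y' h' - Affine.Point.some x y h = 0 ∨
      ∃ (x₃ y₃ : K) (h₃ : W.toAffine.Nonsingular x₃ y₃),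
        Affine.Point.some x' y' h' - Affine.Point.some x y h = Affine.Point.some x₃ y₃ h₃ ∧
          1 < v x₃ := by
  have hx' : v x' ≤ 1 := by
    have : x' = (x' - x) + x := by ring
    rw [this]
    exact v.map_add_le hxx.le hx
  have hy' : v y' ≤ 1 := by
    have : y' = (y' - y) + y := by ring
    rw [this]
    exact v.map_add_le hyy.le hy
  have hnegy : v (W.toAffine.negY x y) ≤ 1 := by
    rw [Affine.negY]
    refine v.map_sub_le (v.map_sub_le ?_ ?_) ha₃
    · rw [v.map_neg]; exact hy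
    · rw [v.map_mul]; exact mul_le_one' ha₁ hx
  have hsub : Affine.Point.some x' y' h' - Affine.Point.some x y h =
      Affine.Point.some x' y' h' + Affine.Point.some x (W.toAffine.negY x y)
        ((Affine.nonsingular_neg ..).mpr h) := by
    rw [sub_eq_add_neg, Affine.Point.neg_some]
  -- the slope is non-integral
  by_cases hPQ : x' = x ∧ y' = y
  · left
    obtain ⟨rfl, rfl⟩ := hPQ
    exact sub_self _
  right
  have hxy : ¬(x' = x ∧ y' = W.toAffine.negY x (W.toAffine.negY x y)) := by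
    rw [Affine.negY_negY]; exact hPQ
  rw [hsub, Affine.Point.add_some hxy]
  refine ⟨_, _, _, rfl, ?_⟩
  rw [Affine.addX]
  refine Reduction.one_lt_val_addX v ha₁ ha₂ hx' hx ?_
  -- `1 < v ℓ`
  have hWY : v (2 * y + W.a₁ * x + W.a₃) ≤ 1 := by
    refine v.map_add_le (v.map_add_le ?_ ?_) ha₃
    · rw [v.map_mul]; exact mul_le_one' (Reduction.val_two_le v) hy
    · rw [v.map_mul]; exact mul_le_one' ha₁ hx
  by_cases hxeq : x' = x
  · -- vertical/tangent case: `Q = -P`
    subst hxeq
    have hyne : y' ≠ y := fun hy0 => hPQ ⟨rfl, hy0⟩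
    have hy'eq : y' = W.toAffine.negY x' y := by
      rcases Affine.Y_eq_of_X_eq h'.1 h.1 rfl with h0 | h0
      · exact absurd h0 hyne
      · exact h0
    have hyne' : y' ≠ W.toAffine.negY x' (W.toAffine.negY x' y) := by
      rw [Affine.negY_negY]; exact hyne
    rw [Affine.slope_of_Y_ne rfl hyne', v.map_div]
    have hden : y' - W.toAffine.negY x' y' = y' - y := by
      rw [hy'eq, Affine.negY_negY]
    rw [hden]
    have hden0 : v (y' - y) ≠ 0 := by
      rw [v.ne_zero_iff]; exact sub_ne_zero.mpr hyne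
    have hWYlt : v (2 * y + W.a₁ * x' + W.a₃) < 1 := by
      have : 2 * y + W.a₁ * x' + W.a₃ = -(y' - y) := by
        rw [hy'eq, Affine.negY]; ring
      rw [this, v.map_neg]; exact hyy
    have hWX : v (W.a₁ * y - (3 * x' ^ 2 + 2 * W.a₂ * x' + W.a₄)) = 1 := by
      rcases hns with h0 | h0
      · exact h0
      · exact absurd h0 hWYlt.ne
    have hnum : v (3 * x' ^ 2 + 2 * W.a₂ * x' + W.a₄ - W.a₁ * y') = 1 := by
      have : 3 * x' ^ 2 + 2 * W.a₂ * x' + W.a₄ - W.a₁ * y' =
          -(W.a₁ * y - (3 * x' ^ 2 + 2 * W.a₂ * x' + W.a₄)) - W.a₁ * (y' - y) := by ring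
      rw [this]
      have h1 : v (W.a₁ * (y' - y)) < 1 := by
        rw [v.map_mul]
        exact lt_of_le_of_lt (mul_le_of_le_one_left' ha₁) hyy
      rw [v.map_sub_eq_of_lt_left (by rw [v.map_neg, hWX]; exact h1), v.map_neg, hWX]
    rw [hnum, one_div]
    exact (one_lt_inv₀ (zero_lt_iff.mpr hden0)).mpr hyy
  · rw [Affine.slope_of_X_ne hxeq, v.map_div]
    have hden0 : v (x' - x) ≠ 0 := by
      rw [v.ne_zero_iff]; exact sub_ne_zero.mpr hxeq
    have hnumeq : y' - W.toAffine.negY x y = (y' - y) + (2 * y + W.a₁ * x + W.a₃) := by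
      rw [Affine.negY]; ring
    by_cases hWY1 : v (2 * y + W.a₁ * x + W.a₃) = 1
    · have hnum : v (y' - W.toAffine.negY x y) = 1 := by
        rw [hnumeq, v.map_add_eq_of_lt_right (by rw [hWY1]; exact hyy), hWY1]
      rw [hnum, one_div]
      exact (one_lt_inv₀ (zero_lt_iff.mpr hden0)).mpr hxx
    · have hWX : v (W.a₁ * y - (3 * x ^ 2 + 2 * W.a₂ * x + W.a₄)) = 1 := by
        rcases hns with h0 | h0
        · exact h0
        · exact absurd h0 hWY1
      -- the curve equations
      have e := (Affine.equation_iff x y).mp h.1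
      have e' := (Affine.equation_iff x' y').mp h'.1
      have key : (y' - y) * (y' + y + W.a₁ * x' + W.a₃) =
          (x' - x) * (x' ^ 2 + x' * x + x ^ 2 + W.a₂ * (x' + x) + W.a₄ - W.a₁ * y) := by
        linear_combination e' - e
      have hM : v (x' ^ 2 + x' * x + x ^ 2 + W.a₂ * (x' + x) + W.a₄ - W.a₁ * y) = 1 := by
        have : x' ^ 2 + x' * x + x ^ 2 + W.a₂ * (x' + x) + W.a₄ - W.a₁ * y =
            (x' - x) * (x' + 2 * x + W.a₂) -
              (W.a₁ * y - (3 * x ^ 2 + 2 * W.a₂ * x + W.a₄)) := by ring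
        rw [this]
        have h1 : v ((x' - x) * (x' + 2 * x + W.a₂)) < 1 := by
          rw [v.map_mul]
          refine lt_of_le_of_lt (mul_le_of_le_one_right' ?_) hxx
          refine v.map_add_le (v.map_add_le hx' ?_) ha₂
          rw [v.map_mul]; exact mul_le_one' (Reduction.val_two_le v) hx
        rw [v.map_sub_eq_of_lt_right (by rw [hWX]; exact h1), hWX]
      have hyne : y' ≠ y := by
        intro hy0
        rw [hy0, sub_self, zero_mul] at key
        rcases mul_eq_zero.mp key.symm with h0 | h0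
        · exact hxeq (sub_eq_zero.mp h0)
        · rw [h0, v.map_zero] at hM
          exact zero_ne_one hM
      have hy0 : v (y' - y) ≠ 0 := by
        rw [v.ne_zero_iff]; exact sub_ne_zero.mpr hyne
      -- `ℓ = M / (y' - y) - a₁`
      have hℓ : (y' - W.toAffine.negY x y) / (x' - x) =
          (x' ^ 2 + x' * x + x ^ 2 + W.a₂ * (x' + x) + W.a₄ - W.a₁ * y) / (y' - y) - W.a₁ := by
        have h1 : x' - x ≠ 0 := sub_ne_zero.mpr hxeq
        have h2 : y' - y ≠ 0 := sub_ne_zero.mpr hyne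
        rw [Affine.negY]
        field_simp
        linear_combination key
      rw [← v.map_div, hℓ]
      have h1 : 1 < v ((x' ^ 2 + x' * x + x ^ 2 + W.a₂ * (x' + x) + W.a₄ - W.a₁ * y) /
          (y' - y)) := by
        rw [v.map_div, hM, one_div]
        exact (one_lt_inv₀ (zero_lt_iff.mpr hy0)).mpr hyy
      rw [v.map_sub_eq_of_lt_left (lt_of_le_of_lt ha₁ h1)]
      exact h1

/-- **P4** (contract form): two points with the same nonsingular reduction differ by a point of
the kernel of reduction. -/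
theorem inKer_sub_of_close (hW : IsIntegralW v W) {x y x' y' : K}
    (h : W.toAffine.Nonsingular x y) (h' : W.toAffine.Nonsingular x' y')
    (hx : v x ≤ 1) (hy : v y ≤ 1)
    (hns : v (W.a₁ * y - (3 * x ^ 2 + 2 * W.a₂ * x + W.a₄)) = 1 ∨
      v (2 * y + W.a₁ * x + W.a₃) = 1)
    (hxx : v (x' - x) < 1) (hyy : v (y' - y) < 1) :
    InKer v W (Affine.Point.some x' y' h' - Affine.Point.some x y h) := by
  rcases reduction_sub v W hW.1 hW.2.1 hW.2.2.1 h h' hx hy hns hxx hyy with h0 | ⟨x₃, y₃, h₃, h0, hv⟩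
  · rw [h0]; exact inKer_zero v W
  · rw [h0]; exact hv

end reduction

end Fermat.Agent.S05
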