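import Mathlib
import Fermat.Agent.S05.Reduction

/-!
# S05, piece P4 (continued): integral points outside the node have nonsingular reduction

`W` integral with `ψ₂² = 4 (x - e) (x - e - al) (x - e + be)`, `v 2 = v be = v (al + be) = 1`.
* `val_y_le_one`: a point with integral `x` has integral `y`;
* `nonsingular_reduction_of_not_node`: an integral point `(x, y)` with
  `¬ (v (x - e) < 1 ∧ v (x - e - al) < 1)` has `v (W_X) = 1` or `v (W_Y) = 1`;
* `reduction_sub_of_not_node`: the combination with `reduction_sub`.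
-/

set_option autoImplicit false

open WeierstrassCurve

namespace Fermat.Agent.S05

section

variable {K : Type*} [Field K] {Γ₀ : Type*} [LinearOrderedCommGroupWithZero Γ₀]
  (v : Valuation K Γ₀) (W : WeierstrassCurve K)

/-- on an integral Weierstrass curve, a point with integral `x` has integral `y` -/
theorem val_y_le_one (ha₁ : v W.a₁ ≤ 1) (ha₂ : v W.a₂ ≤ 1) (ha₃ : v W.a₃ ≤ 1)
    (ha₄ : v W.a₄ ≤ 1) (ha₆ : v W.a₆ ≤ 1) {x y : K} (h : W.toAffine.Equation x y)
    (hx : v x ≤ 1) : v y ≤ 1 := by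
  by_contra hy
  push Not at hy
  have e := (Affine.equation_iff x y).mp h
  have hy0 : 0 < v y := lt_trans zero_lt_one hy
  have h1 : v y < v (y ^ 2) := by
    rw [v.map_pow, pow_two]
    exact lt_mul_of_one_lt_left hy0 hy
  have h2 : y ^ 2 = x ^ 3 + W.a₂ * x ^ 2 + W.a₄ * x + W.a₆ - W.a₁ * x * y - W.a₃ * y := by
    linear_combination e
  have h3 : v (x ^ 3 + W.a₂ * x ^ 2 + W.a₄ * x + W.a₆ - W.a₁ * x * y - W.a₃ * y) ≤ v y := by
    have hx2 : v (x ^ 2) ≤ 1 := by rw [v.map_pow]; exact pow_le_one₀ zero_le hx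
    have hx3 : v (x ^ 3) ≤ 1 := by rw [v.map_pow]; exact pow_le_one₀ zero_le hx
    refine v.map_sub_le (v.map_sub_le (v.map_add_le (v.map_add_le (v.map_add_le ?_ ?_) ?_) ?_)
      ?_) ?_
    · exact hx3.trans hy.le
    · rw [v.map_mul]; exact (mul_le_one' ha₂ hx2).trans hy.le
    · rw [v.map_mul]; exact (mul_le_one' ha₄ hx).trans hy.le
    · exact ha₆.trans hy.le
    · rw [v.map_mul, v.map_mul]
      exact mul_le_of_le_one_left' (mul_le_one' ha₁ hx)
    · rw [v.map_mul]
      exact mul_le_of_le_one_left' ha₃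
  rw [h2] at h1
  exact absurd h1 (not_lt.mpr h3)

/-- an integral point outside the node has nonsingular reduction -/
theorem nonsingular_reduction_of_not_node (ha₁ : v W.a₁ ≤ 1) (ha₂ : v W.a₂ ≤ 1)
    (ha₃ : v W.a₃ ≤ 1) (ha₄ : v W.a₄ ≤ 1) (h2 : v (2 : K) = 1) {e al be : K}
    (hf : ∀ x : K, 4 * x ^ 3 + W.b₂ * x ^ 2 + 2 * W.b₄ * x + W.b₆ =
      4 * (x - e) * (x - e - al) * (x - e + be))
    (he : v e ≤ 1) (hal : v al ≤ 1) (hbe : v be = 1) (halbe : v (al + be) = 1)
    {x y : K} (h : W.toAffine.Equation x y) (hx : v x ≤ 1) (hy : v y ≤ 1)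
    (hnode : ¬(v (x - e) < 1 ∧ v (x - e - al) < 1)) :
    v (W.a₁ * y - (3 * x ^ 2 + 2 * W.a₂ * x + W.a₄)) = 1 ∨
      v (2 * y + W.a₁ * x + W.a₃) = 1 := by
  by_contra hcon
  push Not at hcon
  obtain ⟨hX, hY⟩ := hcon
  have h2le : v (2 : K) ≤ 1 := h2.le
  have h4 : v (4 : K) = 1 := by
    have : (4 : K) = 2 * 2 := by norm_num
    rw [this, v.map_mul, h2, one_mul]
  -- integrality
  have hYle : v (2 * y + W.a₁ * x + W.a₃) ≤ 1 := by
    refine v.map_add_le (v.map_add_le ?_ ?_) ha₃
    · rw [v.map_mul]; exact mul_le_one' h2le hy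
    · rw [v.map_mul]; exact mul_le_one' ha₁ hx
  have hXle : v (W.a₁ * y - (3 * x ^ 2 + 2 * W.a₂ * x + W.a₄)) ≤ 1 := by
    refine v.map_sub_le ?_ (v.map_add_le (v.map_add_le ?_ ?_) ha₄)
    · rw [v.map_mul]; exact mul_le_one' ha₁ hy
    · rw [v.map_mul, v.map_pow]
      exact mul_le_one' (Reduction.val_three_le v) (pow_le_one₀ zero_le hx)
    · rw [v.map_mul, v.map_mul]
      exact mul_le_one' (mul_le_one' h2le ha₂) hx
  have hYlt : v (2 * y + W.a₁ * x + W.a₃) < 1 := lt_of_le_of_ne hYle hY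
  have hXlt : v (W.a₁ * y - (3 * x ^ 2 + 2 * W.a₂ * x + W.a₄)) < 1 := lt_of_le_of_ne hXle hX
  set xt := x - e with hxt
  have hxtle : v xt ≤ 1 := v.map_sub_le hx he
  have hxale : v (xt - al) ≤ 1 := v.map_sub_le hxtle hal
  have hxbele : v (xt + be) ≤ 1 := v.map_add_le hxtle hbe.le
  -- `ψ₂² (x) = W_Y ²`
  have e0 := (Affine.equation_iff x y).mp h
  have hprod : v (xt * (xt - al) * (xt + be)) < 1 := by
    have h1 : 4 * (xt * (xt - al) * (xt + be)) = (2 * y + W.a₁ * x + W.a₃) ^ 2 := by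
      have := hf x
      simp only [WeierstrassCurve.b₂, WeierstrassCurve.b₄, WeierstrassCurve.b₆] at this
      linear_combination -this - 4 * e0
    have h3 : v (4 * (xt * (xt - al) * (xt + be))) < 1 := by
      rw [h1, v.map_pow]
      exact pow_lt_one₀ zero_le hYlt (by norm_num)
    rwa [v.map_mul, h4, one_mul] at h3
  -- the derivative
  have hder : v ((xt - al) * (xt + be) + xt * (xt + be) + xt * (xt - al)) < 1 := by
    have h1 : 4 * ((xt - al) * (xt + be) + xt * (xt + be) + xt * (xt - al)) =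
        2 * W.a₁ * (2 * y + W.a₁ * x + W.a₃) -
          4 * (W.a₁ * y - (3 * x ^ 2 + 2 * W.a₂ * x + W.a₄)) := by
      -- compare the derivatives of the two sides of `hf` via finite differences
      have hf1 := hf (x + 1)
      have hf2 := hf (x - 1)
      have hf0 := hf x
      simp only [WeierstrassCurve.b₂, WeierstrassCurve.b₄, WeierstrassCurve.b₆] at hf0 hf1 hf2
      have h2ne : (2 : K) ≠ 0 := by
        intro h0
        rw [h0, v.map_zero] at h2
        exact zero_ne_one h2
      apply mul_left_cancel₀ h2ne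
      simp only [hxt]
      linear_combination hf2 - hf1
    have h3 : v (4 * ((xt - al) * (xt + be) + xt * (xt + be) + xt * (xt - al))) < 1 := by
      rw [h1]
      refine v.map_sub_lt ?_ ?_
      · rw [v.map_mul]
        refine lt_of_le_of_lt (mul_le_of_le_one_left' ?_) hYlt
        rw [v.map_mul]; exact mul_le_one' h2le ha₁
      · rw [v.map_mul, h4, one_mul]; exact hXlt
    rwa [v.map_mul, h4, one_mul] at h3
  -- case distinction
  have key : ∀ {A B C : K}, v A ≤ 1 → v B ≤ 1 → v C < 1 → v (A * B) = 1 →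
      v (A * B + C) = 1 := by
    intro A B C _ _ hC hAB
    rw [v.map_add_eq_of_lt_left (by rw [hAB]; exact hC), hAB]
  by_cases hxt1 : v xt < 1
  · have hxa1 : v (xt - al) = 1 := by
      refine le_antisymm hxale (not_lt.mp fun h0 => hnode ⟨hxt1, ?_⟩)
      simpa [hxt] using h0
    have hxb1 : v (xt + be) = 1 := by
      rw [v.map_add_eq_of_lt_right (by rw [hbe]; exact hxt1), hbe]
    have : v ((xt - al) * (xt + be) + xt * (xt + be) + xt * (xt - al)) = 1 := by
      have h1 : (xt - al) * (xt + be) + xt * (xt + be) + xt * (xt - al) =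
          (xt - al) * (xt + be) + xt * ((xt + be) + (xt - al)) := by ring
      rw [h1]
      refine key hxale hxbele ?_ (by rw [v.map_mul, hxa1, hxb1, one_mul])
      rw [v.map_mul]
      exact lt_of_le_of_lt (mul_le_of_le_one_right' (v.map_add_le hxbele hxale)) hxt1
    exact absurd this hder.ne
  · have hxt1' : v xt = 1 := le_antisymm hxtle (not_lt.mp hxt1)
    by_cases hxa : v (xt - al) < 1
    · have hxb1 : v (xt + be) = 1 := by
        have h1 : xt + be = (xt - al) + (al + be) := by ring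
        rw [h1, v.map_add_eq_of_lt_right (by rw [halbe]; exact hxa), halbe]
      have : v ((xt - al) * (xt + be) + xt * (xt + be) + xt * (xt - al)) = 1 := by
        have h1 : (xt - al) * (xt + be) + xt * (xt + be) + xt * (xt - al) =
            xt * (xt + be) + (xt - al) * ((xt + be) + xt) := by ring
        rw [h1]
        refine key hxtle hxbele ?_ (by rw [v.map_mul, hxt1', hxb1, one_mul])
        rw [v.map_mul]
        exact lt_of_le_of_lt (mul_le_of_le_one_right' (v.map_add_le hxbele hxtle)) hxa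
      exact absurd this hder.ne
    · have hxa1 : v (xt - al) = 1 := le_antisymm hxale (not_lt.mp hxa)
      have hxb : v (xt + be) < 1 := by
        rw [v.map_mul, v.map_mul, hxt1', hxa1, one_mul, one_mul] at hprod
        exact hprod
      have : v ((xt - al) * (xt + be) + xt * (xt + be) + xt * (xt - al)) = 1 := by
        have h1 : (xt - al) * (xt + be) + xt * (xt + be) + xt * (xt - al) =
            xt * (xt - al) + (xt + be) * ((xt - al) + xt) := by ring
        rw [h1]
        refine key hxtle hxale ?_ (by rw [v.map_mul, hxt1', hxa1, one_mul])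
        rw [v.map_mul]
        exact lt_of_le_of_lt (mul_le_of_le_one_right' (v.map_add_le hxale hxtle)) hxb
      exact absurd this hder.ne

end

section

variable {K : Type*} [Field K] [DecidableEq K] {Γ₀ : Type*} [LinearOrderedCommGroupWithZero Γ₀]
  (v : Valuation K Γ₀) (W : WeierstrassCurve K)

/-- **P4 (R)** in the form used for the Frey curve: if `P = (x, y)` has integral `x` and is not
in the node, and `Q = (x', y')` has the same reduction, then `Q - P` is in the kernel of
reduction. -/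
theorem reduction_sub_of_not_node (ha₁ : v W.a₁ ≤ 1) (ha₂ : v W.a₂ ≤ 1)
    (ha₃ : v W.a₃ ≤ 1) (ha₄ : v W.a₄ ≤ 1) (ha₆ : v W.a₆ ≤ 1) (h2 : v (2 : K) = 1)
    {e al be : K}
    (hf : ∀ x : K, 4 * x ^ 3 + W.b₂ * x ^ 2 + 2 * W.b₄ * x + W.b₆ =
      4 * (x - e) * (x - e - al) * (x - e + be))
    (he : v e ≤ 1) (hal : v al ≤ 1) (hbe : v be = 1) (halbe : v (al + be) = 1)
    {x y x' y' : K} (h : W.toAffine.Nonsingular x y) (h' : W.toAffine.Nonsingular x' y')
    (hx : v x ≤ 1) (hnode : ¬(v (x - e) < 1 ∧ v (x - e - al) < 1))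
    (hxx : v (x' - x) < 1) (hyy : v (y' - y) < 1) :
    Affine.Point.some x' y' h' - Affine.Point.some x y h = 0 ∨
      ∃ (x₃ y₃ : K) (h₃ : W.toAffine.Nonsingular x₃ y₃),
        Affine.Point.some x' y' h' - Affine.Point.some x y h = Affine.Point.some x₃ y₃ h₃ ∧
          1 < v x₃ := by
  have hy : v y ≤ 1 := val_y_le_one v W ha₁ ha₂ ha₃ ha₄ ha₆ h.1 hx
  exact reduction_sub v W ha₁ ha₂ ha₃ h h' hx hy
    (nonsingular_reduction_of_not_node v W ha₁ ha₂ ha₃ ha₄ h2 hf he hal hbe halbe h.1 hx hy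
      hnode) hxx hyy

/-- **P4** for points outside the node, contract form (`InKer`, `IsIntegralW`). -/
theorem inKer_sub_of_not_node (hW : IsIntegralW v W) (h2 : v (2 : K) = 1) {e al be : K}
    (hf : ∀ x : K, 4 * x ^ 3 + W.b₂ * x ^ 2 + 2 * W.b₄ * x + W.b₆ =
      4 * ((x - e) * (x - e - al) * (x - e + be)))
    (he : v e ≤ 1) (hal : v al ≤ 1) (hbe : v be = 1) (halbe : v (al + be) = 1)
    {x y x' y' : K} (h : W.toAffine.Nonsingular x y) (h' : W.toAffine.Nonsingular x' y')
    (hx : v x ≤ 1) (hnode : ¬(v (x - e) < 1 ∧ v (x - e - al) < 1))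
    (hxx : v (x' - x) < 1) (hyy : v (y' - y) < 1) :
    InKer v W (Affine.Point.some x' y' h' - Affine.Point.some x y h) := by
  have hf' : ∀ x : K, 4 * x ^ 3 + W.b₂ * x ^ 2 + 2 * W.b₄ * x + W.b₆ =
      4 * (x - e) * (x - e - al) * (x - e + be) := fun x => by rw [hf x]; ring
  rcases reduction_sub_of_not_node v W hW.1 hW.2.1 hW.2.2.1 hW.2.2.2.1 hW.2.2.2.2 h2 hf' he hal
    hbe halbe h h' hx hnode hxx hyy with h0 | ⟨x₃, y₃, h₃, h0, hv⟩
  · rw [h0]; exact inKer_zero v W
  · rw [h0]; exact hv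

/-- an integral point with `cbarP = 1` (i.e. outside the node), contract form -/
theorem inKer_sub_of_cbarP_eq_one (hW : IsIntegralW v W) (h2 : v (2 : K) = 1) {e al be : K}
    (hf : ∀ x : K, 4 * x ^ 3 + W.b₂ * x ^ 2 + 2 * W.b₄ * x + W.b₆ =
      4 * ((x - e) * (x - e - al) * (x - e + be)))
    (he : v e ≤ 1) (hal : v al < 1) (hbe : v be = 1) (halbe : v (al + be) = 1)
    {x y x' y' : K} (h : W.toAffine.Nonsingular x y) (h' : W.toAffine.Nonsingular x' y')
    (hx : v x ≤ 1) (hc : cbarP v W e al (Affine.Point.some x y h) = 1)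
    (hxx : v (x' - x) < 1) (hyy : v (y' - y) < 1) :
    InKer v W (Affine.Point.some x' y' h' - Affine.Point.some x y h) := by
  refine inKer_sub_of_not_node v W hW h2 hf he hal.le hbe halbe h h' hx ?_ hxx hyy
  rintro ⟨h1, -⟩
  have hc' : (if v (x - e) < 1 then max (v (x - e)) (v al) else 1) = 1 := hc
  rw [if_pos h1] at hc'
  exact absurd hc' (max_lt h1 hal).ne

end

end Fermat.Agent.S05
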