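import Mathlib
import Fermat.Prelude.Def_FLTPrelim_Ramification
import Fermat.Agent.S05.Defs
import Fermat.Agent.S05.Formal
import Fermat.Agent.S05.ReductionNode
import Fermat.Agent.S05.FoldAbs
import Fermat.Agent.S05.FoldCurveFinal
import Fermat.Agent.S05.Inertia
import Fermat.Agent.S05.FixedPoint

/-!
# S05, the core theorem: inertia at `q` acts trivially on the `p`-torsion

`W'` a Weierstrass curve over `ℚ`, `A` a valuation subring of `Qbar` with valuation `v`,
`σ` in the inertia group of `A`, `p` an odd prime with `v p = 1`, `v 2 = 1`, `W'` integral at `v`,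
`ψ₂² = 4 (x - e) (x - e - al) (x - e + be)` with `v e ≤ 1`, `v be = v (al + be) = 1` and either
`v al = 1` (good reduction) or `v al < 1`, `al = u d ^ p`, `v u = 1` (multiplicative reduction with
`p ∣ v (Δ)`).  Then `σ` fixes every `p`-torsion point.

Proof (design of lead, `NOTES/S05_design.md`): `D = σ T - T` is `p`-torsion, and the kernel of
reduction has no `p`-torsion (P3), so it suffices that `D` is in the kernel of reduction.  This
holds when `T` is integral outside the node (P4).  If `T` is in the node, the folding lemma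
(P6, P7) gives `cbar T = v d ^ (2 k)` with `0 < 2 k < p`, the inertia-fixed point `P₀` with
`x (P₀) - e = d ^ (2 k)` (C1) has the same `cbar`, so one of `T ± P₀` is outside the node and has
the same `D`.
-/

set_option autoImplicit false

open WeierstrassCurve WeierstrassCurve.Affine

namespace Fermat.Agent.S05

namespace Core

local notation "Qbar" => AlgebraicClosure ℚ

section general

variable {K : Type*} [Field K] {Γ₀ : Type*} [LinearOrderedCommGroupWithZero Γ₀]
  (v : Valuation K Γ₀)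

theorem cb_le_one (a : Γ₀) (ha : a ≤ 1) (x : K) : cb v a x ≤ 1 := by
  have h : cb v a x = if v x < 1 then max (v x) a else 1 := rfl
  rw [h]
  split_ifs with h1
  · exact max_le h1.le ha
  · exact le_rfl

theorem le_cb (a : Γ₀) (ha : a ≤ 1) (x : K) : a ≤ cb v a x := by
  have h : cb v a x = if v x < 1 then max (v x) a else 1 := rfl
  rw [h]
  split_ifs with h1
  · exact le_max_right _ _
  · exact ha

theorem cb_of_lt (a : Γ₀) {x : K} (hx : v x < 1) : cb v a x = max (v x) a := by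
  have h : cb v a x = if v x < 1 then max (v x) a else 1 := rfl
  rw [h, if_pos hx]

theorem not_lt_of_cb_eq_one (a : Γ₀) (ha : a < 1) {x : K} (hc : cb v a x = 1) : ¬ v x < 1 := by
  intro hx
  rw [cb_of_lt v a hx] at hc
  exact absurd hc (max_lt hx ha).ne

end general

section points

variable (W' : WeierstrassCurve.Affine ℚ)

/-- the Galois action on an affine point -/
theorem smul_some' (σ : Qbar ≃ₐ[ℚ] Qbar) {x y : Qbar} (h : (W'⁄Qbar).Nonsingular x y) :
    ∃ h' : (W'⁄Qbar).Nonsingular (σ x) (σ y),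
      σ • (Affine.Point.some x y h : (W'⁄Qbar).Point) = Affine.Point.some (σ x) (σ y) h' := by
  refine ⟨?_, ?_⟩
  · exact (WeierstrassCurve.Affine.baseChange_nonsingular (W := W') (f := σ.toAlgHom)
      σ.injective x y).mpr h
  · rfl

theorem smul_zero' (σ : Qbar ≃ₐ[ℚ] Qbar) : σ • (0 : (W'⁄Qbar).Point) = 0 := rfl

theorem smul_nsmul' (σ : Qbar ≃ₐ[ℚ] Qbar) (n : ℕ) (T : (W'⁄Qbar).Point) :
    σ • (n • T) = n • (σ • T) :=
  map_nsmul (WeierstrassCurve.Affine.Point.map (W' := W') σ.toAlgHom) n T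

theorem smul_add' (σ : Qbar ≃ₐ[ℚ] Qbar) (P Q : (W'⁄Qbar).Point) :
    σ • (P + Q) = σ • P + σ • Q :=
  map_add (WeierstrassCurve.Affine.Point.map (W' := W') σ.toAlgHom) P Q

theorem smul_sub' (σ : Qbar ≃ₐ[ℚ] Qbar) (P Q : (W'⁄Qbar).Point) :
    σ • (P - Q) = σ • P - σ • Q :=
  map_sub (WeierstrassCurve.Affine.Point.map (W' := W') σ.toAlgHom) P Q

end points

end Core

open Fermat.Agent.S05.Core

local notation "Qbar" => AlgebraicClosure ℚ

/-- the difference `σ T' - T'` is in the kernel of reduction if `cbar T' = 1` -/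
theorem Core.inKer_smul_sub (W' : WeierstrassCurve ℚ) (A : ValuationSubring Qbar)
    (σ : Qbar ≃ₐ[ℚ] Qbar) (hσ : σ ∈ A.inertiaSubgroupIn ℚ)
    (hv2 : A.valuation (2 : Qbar) = 1)
    (hW : IsIntegralW A.valuation (W'.baseChange Qbar)) (e al be : ℚ)
    (hf : ∀ x : Qbar, 4 * x ^ 3 + (W'.baseChange Qbar).b₂ * x ^ 2 +
        2 * (W'.baseChange Qbar).b₄ * x + (W'.baseChange Qbar).b₆ =
      4 * ((x - (e : Qbar)) * (x - (e : Qbar) - (al : Qbar)) * (x - (e : Qbar) + (be : Qbar))))
    (he : A.valuation (e : Qbar) ≤ 1) (hbe : A.valuation (be : Qbar) = 1)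
    (halbe : A.valuation ((al : Qbar) + (be : Qbar)) = 1)
    (hal : A.valuation (al : Qbar) ≤ 1)
    (T : (W'⁄Qbar).Point)
    (hT : ∀ (x y : Qbar) (h : (W'⁄Qbar).Nonsingular x y), T = Affine.Point.some x y h →
      A.valuation x ≤ 1 → ¬(A.valuation (x - (e : Qbar)) < 1 ∧
        A.valuation (x - (e : Qbar) - (al : Qbar)) < 1)) :
    InKer A.valuation (W'.baseChange Qbar) (σ • T - T) := by
  rcases T with _ | ⟨x, y, h⟩
  · have h0 : σ • (Affine.Point.zero : (W'⁄Qbar).Point) - Affine.Point.zero = 0 := by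
      change σ • (0 : (W'⁄Qbar).Point) - 0 = 0
      rw [smul_zero' W' σ, sub_zero]
    rw [h0]
    exact inKer_zero _ _
  · obtain ⟨h', hs⟩ := smul_some' W' σ h
    rw [hs]
    by_cases hx : A.valuation x ≤ 1
    · have hy : A.valuation y ≤ 1 :=
        val_y_le_one A.valuation (W'.baseChange Qbar) hW.1 hW.2.1 hW.2.2.1 hW.2.2.2.1
          hW.2.2.2.2 h.1 hx
      exact inKer_sub_of_not_node A.valuation (W'.baseChange Qbar) hW hv2 hf he hal hbe halbe
        h h' hx (hT x y h rfl hx) (inertia_sub A hσ x hx) (inertia_sub A hσ y hy)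
    · push Not at hx
      refine inKer_sub A.valuation (W'.baseChange Qbar) hW ?_ ?_
      · rw [inKer_some, inertia_val A hσ]
        exact hx
      · rw [inKer_some]
        exact hx

/-- **S05, core theorem** -/
theorem core (W' : WeierstrassCurve ℚ) (A : ValuationSubring Qbar)
    (σ : Qbar ≃ₐ[ℚ] Qbar) (hσ : σ ∈ A.inertiaSubgroupIn ℚ) (p : ℕ) (hp : p.Prime) (hp2 : p ≠ 2)
    (hvp : A.valuation (p : Qbar) = 1) (hv2 : A.valuation (2 : Qbar) = 1)
    (hW : IsIntegralW A.valuation (W'.baseChange Qbar)) (e al be : ℚ)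
    (hf : ∀ x : Qbar, 4 * x ^ 3 + (W'.baseChange Qbar).b₂ * x ^ 2 +
        2 * (W'.baseChange Qbar).b₄ * x + (W'.baseChange Qbar).b₆ =
      4 * ((x - (e : Qbar)) * (x - (e : Qbar) - (al : Qbar)) * (x - (e : Qbar) + (be : Qbar))))
    (he : A.valuation (e : Qbar) ≤ 1) (hbe : A.valuation (be : Qbar) = 1)
    (halbe : A.valuation ((al : Qbar) + (be : Qbar)) = 1) (hal0 : al ≠ 0)
    (hcase : A.valuation (al : Qbar) = 1 ∨
      (A.valuation (al : Qbar) < 1 ∧ ∃ d u : ℚ, al = u * d ^ p ∧ A.valuation (u : Qbar) = 1))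
    (T : (W'⁄Qbar).Point) (hT : p • T = 0) : σ • T = T := by
  set v := A.valuation with hv
  set W := W'.baseChange Qbar with hWdef
  have hal : v (al : Qbar) ≤ 1 := by
    rcases hcase with h | h
    · exact h.le
    · exact h.1.le
  -- it suffices that `D = σ T - T` is in the kernel of reduction
  suffices hD : InKer v W (σ • T - T) by
    have hpD : p • (σ • T - T) = 0 := by
      rw [nsmul_sub, ← smul_nsmul' W' σ p T, hT, smul_zero' W' σ, sub_zero]
    exact sub_eq_zero.mp (inKer_torsion v W hW hvp hD hpD)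
  -- is `T` in the node?
  by_cases hnode : ∀ (x y : Qbar) (h : (W'⁄Qbar).Nonsingular x y), T = Affine.Point.some x y h →
      v x ≤ 1 → ¬(v (x - (e : Qbar)) < 1 ∧ v (x - (e : Qbar) - (al : Qbar)) < 1)
  · exact Core.inKer_smul_sub W' A σ hσ hv2 hW e al be hf he hbe halbe hal T hnode
  push Not at hnode
  obtain ⟨x, y, h, rfl, hx, hx1, hx2⟩ := hnode
  -- multiplicative reduction
  have hal1 : v (al : Qbar) < 1 := by
    have : (al : Qbar) = (x - (e : Qbar)) - (x - (e : Qbar) - (al : Qbar)) := by ring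
    rw [this]
    exact v.map_sub_lt hx1 hx2
  obtain ⟨d, u, hald, hu⟩ : ∃ d u : ℚ, al = u * d ^ p ∧ v (u : Qbar) = 1 := by
    rcases hcase with h0 | h0
    · exact absurd h0 hal1.ne
    · exact h0.2
  have hal0' : (al : Qbar) ≠ 0 := by exact_mod_cast hal0
  have ha0 : v (al : Qbar) ≠ 0 := (v.ne_zero_iff).mpr hal0'
  have hp0 : p ≠ 0 := hp.ne_zero
  -- `a = v d ^ p`
  have had : v (al : Qbar) = v (d : Qbar) ^ p := by
    have : (al : Qbar) = (u : Qbar) * (d : Qbar) ^ p := by rw [hald]; push_cast; rfl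
    rw [this, v.map_mul, hu, one_mul, v.map_pow]
  have hδ0 : v (d : Qbar) ≠ 0 := by
    intro h0
    rw [h0, zero_pow hp0] at had
    exact ha0 had
  have hδpos : 0 < v (d : Qbar) := zero_lt_iff.mpr hδ0
  have hδ1 : v (d : Qbar) < 1 := by
    by_contra hcon
    push Not at hcon
    have : 1 ≤ v (d : Qbar) ^ p := one_le_pow₀ hcon
    rw [← had] at this
    exact absurd hal1 (not_lt.mpr this)
  -- the folding invariant of `T`
  obtain ⟨c, hc⟩ : ∃ c : (W'⁄Qbar).Point → A.ValueGroup,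
      c = cbarP v W (e : Qbar) (al : Qbar) := ⟨_, rfl⟩
  have hXL := fold_curve v W (e := (e : Qbar)) hal1 hal0' hbe halbe hv2 hf
  rw [← hc] at hXL
  have hc1 : ∀ P, v (al : Qbar) ≤ c P := by
    intro P
    rw [hc]
    rcases P with _ | ⟨x', y', h'⟩
    · exact hal
    · exact le_cb v _ hal _
  have hc2 : ∀ P, c P ≤ 1 := by
    intro P
    rw [hc]
    rcases P with _ | ⟨x', y', h'⟩
    · exact le_rfl
    · exact cb_le_one v _ hal _
  have hc0 : c 0 = 1 := by rw [hc]; rfl
  obtain ⟨k, hk⟩ := fold_abstract ha0 hal1 c hc1 hc2 hc0 hXL hT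
  set τ := c (Affine.Point.some x y h) with hτ
  have hτeq : τ = max (v (x - (e : Qbar))) (v (al : Qbar)) := by
    rw [hτ, hc]; exact cb_of_lt v _ hx1
  have hτ1 : τ < 1 := by rw [hτeq]; exact max_lt hx1 hal1
  have hτa : v (al : Qbar) ≤ τ := hc1 _
  have hτk : τ = v (d : Qbar) ^ (2 * k) := by
    have h1 : τ ^ p = (v (d : Qbar) ^ (2 * k)) ^ p := by
      rw [hk, had, ← pow_mul, ← pow_mul, mul_comm]
    exact (pow_left_inj₀ zero_le zero_le hp0).mp h1
  have hk0 : 0 < k := by
    rcases Nat.eq_zero_or_pos k with h0 | h0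
    · rw [h0, mul_zero, pow_zero] at hτk
      exact absurd hτk hτ1.ne
    · exact h0
  have hkp : 2 * k < p := by
    have h1 : 2 * k ≤ p := by
      by_contra hcon
      push Not at hcon
      have : v (d : Qbar) ^ (2 * k) < v (d : Qbar) ^ p :=
        pow_lt_pow_right_of_lt_one₀ hδpos hδ1 hcon
      rw [← hτk, ← had] at this
      exact absurd hτa (not_le.mpr this)
    have h2 : 2 * k ≠ p := by
      intro h0
      have : p = 2 := (Nat.prime_dvd_prime_iff_eq Nat.prime_two hp).mp ⟨k, h0.symm⟩ |>.symm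
      exact hp2 this
    omega
  -- the inertia-fixed point
  obtain ⟨x₀, y₀, h₀, hx₀, hfix⟩ := Fermat.Agent.S05C.exists_fixed_point W' v σ
    (fun z hz => inertia_sub A hσ z hz) hv2 hf hbe hal1 hal0 hald hu hk0 hkp
  set P₀ : (W'⁄Qbar).Point := Affine.Point.some x₀ y₀ h₀ with hP₀
  have hcP₀ : c P₀ = τ := by
    have h1 : c P₀ = cb v (v (al : Qbar)) (x₀ - (e : Qbar)) := by rw [hc]; rfl
    have h2 : v (x₀ - (e : Qbar)) = τ := by rw [hx₀, v.map_pow, hτk]
    rw [h1, cb_of_lt v _ (by rw [h2]; exact hτ1), h2]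
    exact max_eq_left hτa
  have hτ0 : τ ≠ 0 := fun h0 => ha0 (le_antisymm (h0 ▸ hτa) zero_le)
  have hFm : Fm τ τ = 1 := by
    have h1 : Fm τ τ = min (τ / τ) (τ / τ) := rfl
    rw [h1, min_self, div_self hτ0]
  -- one of `T ± P₀` is outside the node
  have hD1 : ∀ T' : (W'⁄Qbar).Point, c T' = 1 → InKer v W (σ • T' - T') := by
    intro T' hT'
    refine Core.inKer_smul_sub W' A σ hσ hv2 hW e al be hf he hbe halbe hal T' ?_
    rintro x' y' h' rfl - ⟨h1, -⟩
    rw [hc] at hT'
    exact not_lt_of_cb_eq_one v _ hal1 hT' h1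
  rcases hXL (Affine.Point.some x y h) P₀ with ⟨-, hm⟩ | ⟨hm, -⟩
  · rw [hcP₀, ← hτ, hFm] at hm
    have := hD1 _ hm
    rwa [smul_sub' W' σ, hfix, sub_sub_sub_cancel_right] at this
  · rw [hcP₀, ← hτ, hFm] at hm
    have := hD1 _ hm
    rwa [smul_add' W' σ, hfix, add_sub_add_right_eq_sub] at this

end Fermat.Agent.S05
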