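import Mathlib
import Fermat.Prelude.Def_FLTPrelim_Ramification
import Fermat.Agent.S05.Defs

/-!
# S05, part P9a: the local data of the Frey curve at an odd prime `q`

For a Frey package `P` and a valuation `v` of a field `K ⊇ ℚ` with `v q < 1`, `q` an odd prime:
* the Frey curve is integral,
* `4 x³ + b₂ x² + 2 b₄ x + b₆ = 4 (x - e) (x - e - α) (x - e + β)` with rational `e, α, β`,
  `v β = v (α + β) = 1`, and either `v α = 1` (good reduction) or `v α < 1` and
  `α = u * d ^ p` with `v u = 1` (multiplicative reduction).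
-/

set_option autoImplicit false

open WeierstrassCurve

namespace Fermat.Agent.S05

section val

variable {K : Type*} [Field K] {Γ₀ : Type*} [LinearOrderedCommGroupWithZero Γ₀]
  (v : Valuation K Γ₀)

theorem frey_val_nat_le (n : ℕ) : v (n : K) ≤ 1 := by
  induction n with
  | zero => simp
  | succ n ih =>
    rw [Nat.cast_succ]
    exact (v.map_add _ _).trans (max_le ih (le_of_eq v.map_one))

theorem frey_val_int_le (n : ℤ) : v (n : K) ≤ 1 := by
  rcases Int.natAbs_eq n with h | h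
  · rw [h, Int.cast_natCast]
    exact frey_val_nat_le v _
  · rw [h, Int.cast_neg, Int.cast_natCast, Valuation.map_neg]
    exact frey_val_nat_le v _

theorem frey_val_int_lt {q : ℕ} (hvq : v (q : K) < 1) {n : ℤ} (hn : (q : ℤ) ∣ n) :
    v (n : K) < 1 := by
  obtain ⟨m, rfl⟩ := hn
  rw [Int.cast_mul, Int.cast_natCast, map_mul]
  calc v (q : K) * v (m : K) ≤ v (q : K) * 1 := by
        gcongr
        exact frey_val_int_le v m
    _ = v (q : K) := mul_one _
    _ < 1 := hvq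

theorem frey_val_int_eq {q : ℕ} (hq : q.Prime) (hvq : v (q : K) < 1) {n : ℤ}
    (hn : ¬ (q : ℤ) ∣ n) : v (n : K) = 1 := by
  have hcop : IsCoprime (q : ℤ) n :=
    (Prime.coprime_iff_not_dvd (Nat.prime_iff_prime_int.1 hq)).2 hn
  obtain ⟨r, s, hrs⟩ := hcop
  refine le_antisymm (frey_val_int_le v n) ?_
  by_contra hlt
  push Not at hlt
  have h1 : v ((r : K) * (q : K) + (s : K) * (n : K)) = 1 := by
    have : ((r : K) * (q : K) + (s : K) * (n : K)) = 1 := by
      have := congrArg (Int.cast : ℤ → K) hrs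
      push_cast at this
      exact this
    rw [this, map_one]
  have h2 : v ((r : K) * (q : K) + (s : K) * (n : K)) < 1 := by
    refine lt_of_le_of_lt (v.map_add _ _) (max_lt ?_ ?_)
    · rw [map_mul]
      calc v (r : K) * v (q : K) ≤ 1 * v (q : K) := by
            gcongr
            exact frey_val_int_le v r
        _ = v (q : K) := one_mul _
        _ < 1 := hvq
    · rw [map_mul]
      calc v (s : K) * v (n : K) ≤ 1 * v (n : K) := by
            gcongr
            exact frey_val_int_le v s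
        _ = v (n : K) := one_mul _
        _ < 1 := hlt
  exact absurd h1 (ne_of_lt h2)

theorem frey_val_nat_eq {q : ℕ} (hq : q.Prime) (hvq : v (q : K) < 1) {n : ℕ}
    (hn : ¬ q ∣ n) : v (n : K) = 1 := by
  have := frey_val_int_eq v hq hvq (n := (n : ℤ)) (by rwa [Int.natCast_dvd_natCast])
  simpa using this

end val

section frey

variable (P : FreyPackage)

theorem frey_b₂ : P.freyCurve.b₂ = (P.b : ℚ) ^ P.p - (P.a : ℚ) ^ P.p := by
  simp only [WeierstrassCurve.b₂, FreyPackage.freyCurve]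
  ring

theorem frey_b₄ : P.freyCurve.b₄ = -((P.a : ℚ) ^ P.p * (P.b : ℚ) ^ P.p) / 8 := by
  simp only [WeierstrassCurve.b₄, FreyPackage.freyCurve]
  ring

theorem frey_b₆ : P.freyCurve.b₆ = 0 := by
  simp only [WeierstrassCurve.b₆, FreyPackage.freyCurve]
  ring

theorem frey_c_pow : (P.c : ℚ) ^ P.p = (P.a : ℚ) ^ P.p + (P.b : ℚ) ^ P.p := by
  exact_mod_cast P.hFLT.symm

theorem frey_not_dvd_ab {q : ℕ} (hq : q.Prime) (ha : (q : ℤ) ∣ P.a) : ¬ (q : ℤ) ∣ P.b := by
  intro hb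
  have := dvd_gcd ha hb
  rw [P.hgcdab] at this
  exact (Nat.prime_iff_prime_int.1 hq).not_dvd_one this

theorem frey_not_dvd_ac {q : ℕ} (hq : q.Prime) (ha : (q : ℤ) ∣ P.a) : ¬ (q : ℤ) ∣ P.c := by
  intro hb
  have := dvd_gcd ha hb
  rw [P.hgcdac] at this
  exact (Nat.prime_iff_prime_int.1 hq).not_dvd_one this

theorem frey_not_dvd_bc {q : ℕ} (hq : q.Prime) (ha : (q : ℤ) ∣ P.b) : ¬ (q : ℤ) ∣ P.c := by
  intro hb
  have := dvd_gcd ha hb
  rw [P.hgcdbc] at this
  exact (Nat.prime_iff_prime_int.1 hq).not_dvd_one this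

variable {K : Type*} [Field K] {Γ₀ : Type*} [LinearOrderedCommGroupWithZero Γ₀]
  (v : Valuation K Γ₀)

/-- valuation of `n ^ p / m`, `m` prime to `q` -/
theorem frey_val_pow_div_eq {q : ℕ} (hq : q.Prime) (hvq : v (q : K) < 1) {n : ℤ}
    (hn : ¬ (q : ℤ) ∣ n) (p : ℕ) {m : ℕ} (hm : ¬ q ∣ m) :
    v ((n : K) ^ p / (m : K)) = 1 := by
  rw [map_div₀, map_pow, frey_val_int_eq v hq hvq hn, frey_val_nat_eq v hq hvq hm]
  simp

theorem frey_val_pow_div_lt {q : ℕ} (hq : q.Prime) (hvq : v (q : K) < 1) {n : ℤ}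
    (hn : (q : ℤ) ∣ n) {p : ℕ} (hp : p ≠ 0) {m : ℕ} (hm : ¬ q ∣ m) :
    v ((n : K) ^ p / (m : K)) < 1 := by
  rw [map_div₀, map_pow, frey_val_nat_eq v hq hvq hm, div_one]
  exact pow_lt_one₀ zero_le (frey_val_int_lt v hvq hn) hp

theorem frey_val_int_div_le {q : ℕ} (hq : q.Prime) (hvq : v (q : K) < 1) (n : ℤ)
    {m : ℕ} (hm : ¬ q ∣ m) : v ((n : K) / (m : K)) ≤ 1 := by
  rw [map_div₀, frey_val_nat_eq v hq hvq hm, div_one]
  exact frey_val_int_le v n

theorem frey_not_dvd_two_pow {q : ℕ} (hq : q.Prime) (hq2 : q ≠ 2) (k : ℕ) : ¬ q ∣ 2 ^ k := by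
  intro h
  have := (Nat.prime_dvd_prime_iff_eq hq Nat.prime_two).1 (hq.dvd_of_dvd_pow h)
  exact hq2 this

/-- the Frey curve is integral at every odd prime -/
theorem frey_isIntegralW [CharZero K] [Algebra ℚ K] {q : ℕ} (hq : q.Prime) (hq2 : q ≠ 2) (hvq : v (q : K) < 1) :
    IsIntegralW v (P.freyCurve.baseChange K) := by
  have h4 : ¬ q ∣ 4 := frey_not_dvd_two_pow hq hq2 2
  have h16 : ¬ q ∣ 16 := frey_not_dvd_two_pow hq hq2 4
  refine ⟨?_, ?_, ?_, ?_, ?_⟩
  · simp [WeierstrassCurve.baseChange, FreyPackage.freyCurve]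
  · have : (P.freyCurve.baseChange K).a₂ =
        (((P.b ^ P.p - 1 - P.a ^ P.p : ℤ) : K)) / ((4 : ℕ) : K) := by
      simp only [WeierstrassCurve.baseChange, WeierstrassCurve.map_a₂, FreyPackage.freyCurve,
        eq_ratCast]
      push_cast
      ring
    rw [this]
    exact frey_val_int_div_le v hq hvq _ h4
  · simp [WeierstrassCurve.baseChange, FreyPackage.freyCurve]
  · have : (P.freyCurve.baseChange K).a₄ =
        (((-(P.a ^ P.p) * P.b ^ P.p : ℤ) : K)) / ((16 : ℕ) : K) := by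
      simp only [WeierstrassCurve.baseChange, WeierstrassCurve.map_a₄, FreyPackage.freyCurve,
        eq_ratCast]
      push_cast
      ring
    rw [this]
    exact frey_val_int_div_le v hq hvq _ h16
  · simp [WeierstrassCurve.baseChange, FreyPackage.freyCurve]

/-- the `2`-division polynomial of the Frey curve -/
theorem frey_hf [CharZero K] [Algebra ℚ K] (x : K) :
    4 * x ^ 3 + (P.freyCurve.baseChange K).b₂ * x ^ 2 + 2 * (P.freyCurve.baseChange K).b₄ * x
      + (P.freyCurve.baseChange K).b₆ =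
    4 * (x * (x - (P.a : K) ^ P.p / 4) * (x + (P.b : K) ^ P.p / 4)) := by
  simp only [WeierstrassCurve.baseChange, WeierstrassCurve.map_b₂, WeierstrassCurve.map_b₄,
    WeierstrassCurve.map_b₆, frey_b₂, frey_b₄, frey_b₆, eq_ratCast]
  push_cast
  ring

/-- **the local data of the Frey curve** at an odd prime `q` -/
theorem frey_local_data [CharZero K] [Algebra ℚ K] {q : ℕ} (hq : q.Prime) (hq2 : q ≠ 2)
    (hvq : v (q : K) < 1) :
    ∃ e al be : ℚ,
      (∀ x : K, 4 * x ^ 3 + (P.freyCurve.baseChange K).b₂ * x ^ 2 +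
          2 * (P.freyCurve.baseChange K).b₄ * x + (P.freyCurve.baseChange K).b₆ =
        4 * ((x - (e : K)) * (x - (e : K) - (al : K)) * (x - (e : K) + (be : K)))) ∧
      v (e : K) ≤ 1 ∧ v (be : K) = 1 ∧ v ((al : K) + (be : K)) = 1 ∧ al ≠ 0 ∧
      (v (al : K) = 1 ∨
        (v (al : K) < 1 ∧ ∃ d u : ℚ, al = u * d ^ P.p ∧ v (u : K) = 1)) := by
  have h4 : ¬ q ∣ 4 := frey_not_dvd_two_pow hq hq2 2
  have hp0 : P.p ≠ 0 := P.hp0
  have hqi := Nat.prime_iff_prime_int.1 hq
  have ha0 : (P.a : ℚ) ≠ 0 := by exact_mod_cast P.ha0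
  have hb0 : (P.b : ℚ) ≠ 0 := by exact_mod_cast P.hb0
  have hc0 : (P.c : ℚ) ≠ 0 := by exact_mod_cast P.hc0
  have hcK : (P.c : K) ^ P.p = (P.a : K) ^ P.p + (P.b : K) ^ P.p := by
    exact_mod_cast P.hFLT.symm
  have hu : v (((1 / 4 : ℚ)) : K) = 1 := by
    have : (((1 / 4 : ℚ)) : K) = ((1 : ℤ) : K) ^ 1 / ((4 : ℕ) : K) := by push_cast; ring
    rw [this]
    exact frey_val_pow_div_eq v hq hvq (hqi.not_dvd_one) 1 h4
  have hu' : v (((-1 / 4 : ℚ)) : K) = 1 := by
    have : (((-1 / 4 : ℚ)) : K) = -(((1 / 4 : ℚ)) : K) := by push_cast; ring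
    rw [this, Valuation.map_neg, hu]
  -- valuations of `± n ^ p / 4`
  have hval_eq : ∀ n : ℤ, ¬ (q : ℤ) ∣ n → v ((n : K) ^ P.p / 4) = 1 := by
    intro n hn
    have := frey_val_pow_div_eq v hq hvq hn P.p h4
    simpa using this
  have hval_lt : ∀ n : ℤ, (q : ℤ) ∣ n → v ((n : K) ^ P.p / 4) < 1 := by
    intro n hn
    have := frey_val_pow_div_lt v hq hvq hn hp0 h4
    simpa using this
  by_cases hqa : (q : ℤ) ∣ P.a
  · -- `q ∣ a`
    have hqb := frey_not_dvd_ab P hq hqa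
    have hqc := frey_not_dvd_ac P hq hqa
    refine ⟨0, (P.a : ℚ) ^ P.p / 4, (P.b : ℚ) ^ P.p / 4, ?_, ?_, ?_, ?_, ?_, ?_⟩
    · intro x
      rw [frey_hf]
      push_cast
      ring
    · simp
    · push_cast
      exact hval_eq _ hqb
    · have : (((P.a : ℚ) ^ P.p / 4 : ℚ) : K) + (((P.b : ℚ) ^ P.p / 4 : ℚ) : K) =
          (P.c : K) ^ P.p / 4 := by
        rw [hcK]; push_cast; ring
      rw [this]
      exact hval_eq _ hqc
    · exact div_ne_zero (pow_ne_zero _ ha0) (by norm_num)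
    · right
      refine ⟨?_, P.a, 1 / 4, by ring, hu⟩
      push_cast
      exact hval_lt _ hqa
  by_cases hqb : (q : ℤ) ∣ P.b
  · -- `q ∣ b`
    have hqc := frey_not_dvd_bc P hq hqb
    refine ⟨0, -((P.b : ℚ) ^ P.p / 4), -((P.a : ℚ) ^ P.p / 4), ?_, ?_, ?_, ?_, ?_, ?_⟩
    · intro x
      rw [frey_hf]
      push_cast
      ring
    · simp
    · push_cast
      rw [Valuation.map_neg]
      exact hval_eq _ hqa
    · have : ((-((P.b : ℚ) ^ P.p / 4) : ℚ) : K) + ((-((P.a : ℚ) ^ P.p / 4) : ℚ) : K) =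
          -((P.c : K) ^ P.p / 4) := by
        rw [hcK]; push_cast; ring
      rw [this, Valuation.map_neg]
      exact hval_eq _ hqc
    · exact neg_ne_zero.2 (div_ne_zero (pow_ne_zero _ hb0) (by norm_num))
    · right
      refine ⟨?_, P.b, -1 / 4, by ring, hu'⟩
      push_cast
      rw [Valuation.map_neg]
      exact hval_lt _ hqb
  by_cases hqc : (q : ℤ) ∣ P.c
  · -- `q ∣ c`
    refine ⟨(P.a : ℚ) ^ P.p / 4, -((P.c : ℚ) ^ P.p / 4), (P.a : ℚ) ^ P.p / 4,
      ?_, ?_, ?_, ?_, ?_, ?_⟩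
    · intro x
      rw [frey_hf]
      push_cast
      rw [hcK]
      ring
    · push_cast
      exact (hval_eq _ hqa).le
    · push_cast
      exact hval_eq _ hqa
    · have : ((-((P.c : ℚ) ^ P.p / 4) : ℚ) : K) + (((P.a : ℚ) ^ P.p / 4 : ℚ) : K) =
          -((P.b : K) ^ P.p / 4) := by
        push_cast; rw [hcK]; ring
      rw [this, Valuation.map_neg]
      exact hval_eq _ hqb
    · exact neg_ne_zero.2 (div_ne_zero (pow_ne_zero _ hc0) (by norm_num))
    · right
      refine ⟨?_, P.c, -1 / 4, by ring, hu'⟩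
      push_cast
      rw [Valuation.map_neg]
      exact hval_lt _ hqc
  · -- good reduction
    refine ⟨0, (P.a : ℚ) ^ P.p / 4, (P.b : ℚ) ^ P.p / 4, ?_, ?_, ?_, ?_, ?_, ?_⟩
    · intro x
      rw [frey_hf]
      push_cast
      ring
    · simp
    · push_cast
      exact hval_eq _ hqb
    · have : (((P.a : ℚ) ^ P.p / 4 : ℚ) : K) + (((P.b : ℚ) ^ P.p / 4 : ℚ) : K) =
          (P.c : K) ^ P.p / 4 := by
        rw [hcK]; push_cast; ring
      rw [this]
      exact hval_eq _ hqc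
    · exact div_ne_zero (pow_ne_zero _ ha0) (by norm_num)
    · left
      push_cast
      exact hval_eq _ hqa

theorem frey_val_two {q : ℕ} (hq : q.Prime) (hq2 : q ≠ 2) (hvq : v (q : K) < 1) :
    v (2 : K) = 1 := by
  have := frey_val_nat_eq v hq hvq (n := 2) (by simpa using frey_not_dvd_two_pow hq hq2 1)
  simpa using this

theorem frey_val_p {q : ℕ} (hq : q.Prime) (hqp : q ≠ P.p) (hvq : v (q : K) < 1) :
    v (P.p : K) = 1 :=
  frey_val_nat_eq v hq hvq (fun h => hqp ((Nat.prime_dvd_prime_iff_eq hq P.pp).1 h))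

end frey

end Fermat.Agent.S05
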